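import Fermat.Agent.TW.RayL.PrimeSums
import Mathlib.Analysis.SpecialFunctions.Complex.CircleAddChar
import Mathlib.RingTheory.Polynomial.Cyclotomic.Basic

/-!
# Primes in the kernel of a character

The product over all characters `ψ` of a value group of order `p ^ n` of the Euler factors shows
that the primes in the kernel carry at most `p⁻ⁿ` of the total.
-/

set_option autoImplicit false

noncomputable section

open Module NumberField IsDedekindDomain Filter Topology

attribute [local instance] Classical.propDecidable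

namespace FLTAgent.TW.RayL

variable {K : Type} [Field K] [NumberField K] {p : ℕ} [Fact p.Prime] {m : Ideal (𝓞 K)} {n : ℕ}

theorem rayHom_map_one {V : Type} [AddCommGroup V] (χ : RayHom m V) :
    χ.toFun 1 = 0 := by
  have h := χ.map_ray 1 one_ne_zero (by rw [sub_self]; exact zero_mem m)
  rwa [Ideal.span_singleton_one, ← Ideal.one_eq_top] at h

/-- The pairing on coordinate vectors. -/
def dot (a : Fin n → ZMod p) : (Fin n → ZMod p) →+ ZMod p where
  toFun v := ∑ i, a i * v i
  map_zero' := by simp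
  map_add' u v := by simp [mul_add, Finset.sum_add_distrib]

/-- The complex character `I ↦ e(a ⬝ χ I)`. -/
def toRayChar (hm : m ≠ ⊥) (χ : RayHom m (Fin n → ZMod p)) (a : Fin n → ZMod p) : RayChar m where
  toFun :=
    { toFun := fun I => if I ≠ ⊥ ∧ IsCoprime I m then ZMod.stdAddChar (dot a (χ.toFun I)) else 0
      map_zero' := if_neg fun h => h.1 rfl
      map_one' := by
        rw [if_pos ⟨one_ne_zero (α := Ideal (𝓞 K)), isCoprime_one_left⟩, rayHom_map_one χ,
          map_zero, AddChar.map_zero_eq_one]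
      map_mul' := fun I J => by
        by_cases h : (I ≠ ⊥ ∧ IsCoprime I m) ∧ J ≠ ⊥ ∧ IsCoprime J m
        · obtain ⟨hI, hJ⟩ := h
          rw [if_pos hI, if_pos hJ, if_pos ⟨mul_ne_zero hI.1 hJ.1, hI.2.mul_left hJ.2⟩,
            χ.map_mul I J hI.1 hJ.1 hI.2 hJ.2, map_add, AddChar.map_add_eq_mul]
        · rw [if_neg fun hIJ : I * J ≠ ⊥ ∧ IsCoprime (I * J) m => h
            ⟨⟨left_ne_zero_of_mul hIJ.1, hIJ.2.of_mul_left_left⟩,
              right_ne_zero_of_mul hIJ.1, hIJ.2.of_mul_left_right⟩]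
          rcases not_and_or.1 h with h' | h'
          · rw [if_neg h', zero_mul]
          · rw [if_neg h', mul_zero] }
  norm_eq I hI hc := by
    show ‖if I ≠ ⊥ ∧ IsCoprime I m then ZMod.stdAddChar (dot a (χ.toFun I)) else (0 : ℂ)‖ = 1
    rw [if_pos ⟨hI, hc⟩, ZMod.stdAddChar_apply, Circle.norm_coe]
  eq_zero I h := if_neg fun h' => h h'.2
  ray x hx hxm := by
    show (if Ideal.span {x} ≠ ⊥ ∧ IsCoprime (Ideal.span {x}) m then
      ZMod.stdAddChar (dot a (χ.toFun (Ideal.span {x}))) else (0 : ℂ)) = 1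
    rw [if_pos, χ.map_ray x hx hxm, map_zero, AddChar.map_zero_eq_one]
    refine ⟨by simpa using hx, Ideal.isCoprime_iff_exists.2
      ⟨x, Ideal.mem_span_singleton_self x, 1 - x, ?_, by ring⟩⟩
    rw [← neg_sub]
    exact neg_mem hxm

theorem toRayChar_apply (hm : m ≠ ⊥) (χ : RayHom m (Fin n → ZMod p)) (a : Fin n → ZMod p)
    {I : Ideal (𝓞 K)} (hI : I ≠ ⊥) (hc : IsCoprime I m) :
    (toRayChar hm χ a).toFun I = ZMod.stdAddChar (dot a (χ.toFun I)) :=
  if_pos ⟨hI, hc⟩

theorem toRayChar_nontrivial (hm : m ≠ ⊥) (χ : RayHom m (Fin n → ZMod p))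
    (hχ : χ.values = ⊤) {a : Fin n → ZMod p} (ha : a ≠ 0) :
    ∃ I, I ≠ ⊥ ∧ IsCoprime I m ∧ (toRayChar hm χ a).toFun I ≠ 1 := by
  by_contra hcon
  push Not at hcon
  have hle : χ.values ≤ (dot a).ker := by
    rw [RayHom.values, AddSubgroup.closure_le]
    rintro _ ⟨I, rfl⟩
    show dot a (χ.toFun I) = 0
    by_cases h : I ≠ ⊥ ∧ IsCoprime I m
    · have h1 := hcon I h.1 h.2
      rw [toRayChar_apply hm χ a h.1 h.2] at h1
      exact ZMod.injective_stdAddChar (h1.trans (AddChar.map_zero_eq_one _).symm)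
    · rw [χ.eq_zero I (by tauto), map_zero]
  refine ha (funext fun i => ?_)
  have h := hle (hχ ▸ AddSubgroup.mem_top (Pi.single i (1 : ZMod p)))
  rw [AddMonoidHom.mem_ker] at h
  simpa [dot, Pi.single_apply] using h

theorem prod_one_sub_stdAddChar (x : ℂ) :
    ∏ j : ZMod p, (1 - ZMod.stdAddChar j * x) = 1 - x ^ p := by
  have hp := (Fact.out : p.Prime)
  have hpow : ∀ j : ZMod p, ZMod.stdAddChar j ^ p = (1 : ℂ) := fun j => by
    rw [← AddChar.map_nsmul_eq_pow, nsmul_eq_mul, ZMod.natCast_self, zero_mul,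
      AddChar.map_zero_eq_one]
  have hprim : IsPrimitiveRoot (ZMod.stdAddChar (1 : ZMod p) : ℂ) p := by
    rw [IsPrimitiveRoot.iff_def]
    refine ⟨hpow 1, fun l hl => ?_⟩
    rw [← AddChar.map_nsmul_eq_pow, nsmul_eq_mul, mul_one] at hl
    exact (ZMod.natCast_eq_zero_iff l p).1
      (ZMod.injective_stdAddChar (hl.trans (AddChar.map_zero_eq_one _).symm))
  have h := hprim.pow_sub_pow_eq_prod_sub_mul (x := (1 : ℂ)) (y := x) hp.pos
  rw [one_pow] at h
  have himage : Finset.univ.image (fun j : ZMod p => (ZMod.stdAddChar j : ℂ))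
      = Polynomial.nthRootsFinset p (1 : ℂ) := by
    refine Finset.eq_of_subset_of_card_le (fun z hz => ?_) ?_
    · obtain ⟨j, -, rfl⟩ := Finset.mem_image.1 hz
      exact (Polynomial.mem_nthRootsFinset hp.pos 1).2 (hpow j)
    · rw [hprim.card_nthRootsFinset, Finset.card_image_of_injective _ ZMod.injective_stdAddChar,
        Finset.card_univ, ZMod.card]
  rw [h, ← himage, Finset.prod_image ZMod.injective_stdAddChar.injOn]

theorem norm_prod_factor_le (v : Fin n → ZMod p) {x : ℝ} (hx0 : 0 ≤ x) (hx1 : x ≤ 1)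
    (hv : v ≠ 0) : ‖∏ a : Fin n → ZMod p, (1 - ZMod.stdAddChar (dot a v) * (x : ℂ))‖ ≤ 1 := by
  obtain ⟨i, hi⟩ := Function.ne_iff.1 hv
  have hsurj : ∀ j : ZMod p, ∃ a : Fin n → ZMod p, dot a v = j := fun j =>
    ⟨Pi.single i (j / v i), by
      show ∑ k, (Pi.single i (j / v i) : Fin n → ZMod p) k * v k = j
      simp [Pi.single_apply, div_mul_cancel₀ j hi]⟩
  have hadd : ∀ a b : Fin n → ZMod p, dot (a + b) v = dot a v + dot b v := fun a b => by
    simp [dot, add_mul, Finset.sum_add_distrib]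
  set k : ℕ := (Finset.univ.filter fun a : Fin n → ZMod p => dot a v = 0).card
  have hfib : ∀ j, (Finset.univ.filter fun a : Fin n → ZMod p => dot a v = j).card = k := by
    intro j
    obtain ⟨a₀, rfl⟩ := hsurj j
    refine Finset.card_bij' (fun a _ => a - a₀) (fun a _ => a + a₀) ?_ ?_ ?_ ?_
    · intro a ha
      simp only [Finset.mem_filter, Finset.mem_univ, true_and] at ha ⊢
      have := hadd (a - a₀) a₀
      rw [sub_add_cancel, ha] at this
      exact add_eq_right.1 this.symm
    · intro a ha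
      simp only [Finset.mem_filter, Finset.mem_univ, true_and] at ha ⊢
      rw [hadd, ha, zero_add]
    · intro a _; simp
    · intro a _; simp
  rw [← Finset.prod_fiberwise Finset.univ (fun a => dot a v),
    Finset.prod_congr rfl fun j _ => ?_]
  rotate_left
  · exact fun j => (1 - ZMod.stdAddChar j * (x : ℂ)) ^ k
  · rw [Finset.prod_congr rfl fun a ha => by rw [(Finset.mem_filter.1 ha).2], Finset.prod_const,
      hfib]
  rw [Finset.prod_pow, prod_one_sub_stdAddChar, norm_pow, ← Complex.ofReal_pow,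
    ← Complex.ofReal_one, ← Complex.ofReal_sub, Complex.norm_real, Real.norm_eq_abs]
  refine pow_le_one₀ (abs_nonneg _) ?_
  rw [abs_of_nonneg (by linarith [pow_le_one₀ (n := p) hx0 hx1])]
  linarith [pow_nonneg hx0 p]

/-- `p ^ n` times the kernel primes is at most the total, up to a bounded error. -/
theorem exists_kernel_bound (hm : m ≠ ⊥) (χ : RayHom m (Fin n → ZMod p)) (hχ : χ.values = ⊤) :
    ∃ D : ℝ, ∀ᶠ s in 𝓝[>] (1 : ℝ),
      (p : ℝ) ^ n * primeSum {P : HeightOneSpectrum (𝓞 K) |
          IsCoprime P.asIdeal m ∧ χ.toFun P.asIdeal = 0} s ≤ Real.log (1 / (s - 1)) + D := by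
  obtain ⟨D, hD⟩ := exists_log_zetaSum (K := K)
  choose! B hB using fun (a : Fin n → ZMod p) (ha : a ≠ 0) =>
    (toRayChar hm χ a).exists_bound_lseries hm (toRayChar_nontrivial hm χ hχ ha)
  set E : ℝ := ∏ a ∈ Finset.univ.erase (0 : Fin n → ZMod p), max 1 (B a) with hE
  have hE1 : 1 ≤ E := Finset.prod_const_one.ge.trans
    (Finset.prod_le_prod (fun _ _ => zero_le_one) fun a _ => le_max_left _ _)
  refine ⟨D + Real.log E + (p : ℝ) ^ n * Real.log 2, ?_⟩
  filter_upwards [hD, self_mem_nhdsWithin, nhdsWithin_le_nhds (eventually_lt_nhds one_lt_two)]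
    with s hsD (hs : 1 < s) (hs2 : s < 2)
  choose T₀ hT₀ using fun a => (toRayChar hm χ a).exists_euler hs
  have hp0 : (0 : ℝ) < (p : ℝ) ^ n := pow_pos (Nat.cast_pos.2 (Fact.out : p.Prime).pos) n
  rw [← le_div_iff₀' hp0]
  refine primeSum_le_of_sum_le fun T hT => (le_div_iff₀' hp0).2 ?_
  set U : Finset (HeightOneSpectrum (𝓞 K)) := T ∪ Finset.univ.biUnion T₀
  have hpos : ∀ P : HeightOneSpectrum (𝓞 K), 0 < 1 - nterm s P.asIdeal := fun P => by
    linarith [nterm_prime_le_half hs.le P]
  have hcard : Fintype.card (Fin n → ZMod p) = p ^ n := by simp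
  have hfac : ∀ P : HeightOneSpectrum (𝓞 K),
      ‖∏ a, (1 - (toRayChar hm χ a).term s P.asIdeal)‖
        ≤ if P ∈ T then (1 - nterm s P.asIdeal) ^ (p ^ n) else 1 := by
    intro P
    by_cases hc : IsCoprime P.asIdeal m
    · simp only [RayChar.term, toRayChar_apply hm χ _ P.ne_bot hc]
      by_cases hv : χ.toFun P.asIdeal = 0
      · simp only [hv, map_zero, AddChar.map_zero_eq_one, one_mul, Finset.prod_const,
          Finset.card_univ, hcard, norm_pow]
        rw [← Complex.ofReal_one, ← Complex.ofReal_sub, Complex.norm_real, Real.norm_eq_abs,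
          abs_of_pos (hpos P)]
        split_ifs
        · exact le_rfl
        · exact pow_le_one₀ (hpos P).le (by linarith [nterm_nonneg s P.asIdeal])
      · rw [if_neg fun hPT => hv (hT P hPT).2]
        exact norm_prod_factor_le _ (nterm_nonneg _ _)
          ((nterm_prime_le_half hs.le P).trans (by norm_num)) hv
    · rw [if_neg fun hPT => hc (hT P hPT).1]
      simp [RayChar.term, (toRayChar hm χ _).eq_zero _ hc]
  have hlow : (1 / 2 : ℝ) ^ (p ^ n)
      ≤ (zetaSum K s * E) * ∏ P ∈ T, (1 - nterm s P.asIdeal) ^ (p ^ n) := by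
    calc (1 / 2 : ℝ) ^ (p ^ n) = ∏ _a : Fin n → ZMod p, (1 / 2 : ℝ) := by
          rw [Finset.prod_const, Finset.card_univ, hcard]
      _ ≤ ∏ a, (‖(toRayChar hm χ a).lseries s‖
            * ‖∏ P ∈ U, (1 - (toRayChar hm χ a).term s P.asIdeal)‖) :=
          Finset.prod_le_prod (fun _ _ => by norm_num) fun a _ =>
            RayChar.half_le_norm _ (hT₀ a U
              ((Finset.subset_biUnion_of_mem T₀ (Finset.mem_univ a)).trans Finset.subset_union_right))
      _ = (∏ a, ‖(toRayChar hm χ a).lseries s‖)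
            * ∏ P ∈ U, ‖∏ a, (1 - (toRayChar hm χ a).term s P.asIdeal)‖ := by
          simp only [Finset.prod_mul_distrib, norm_prod]
          rw [Finset.prod_comm]
      _ ≤ _ := by
          refine mul_le_mul ?_ ?_ (Finset.prod_nonneg fun _ _ => norm_nonneg _)
            (mul_nonneg (zero_le_one.trans (one_le_zetaSum hs)) (zero_le_one.trans hE1))
          · rw [← Finset.mul_prod_erase _ _ (Finset.mem_univ (0 : Fin n → ZMod p)), hE]
            refine mul_le_mul ((toRayChar hm χ 0).norm_lseries_le hs) ?_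
              (Finset.prod_nonneg fun _ _ => norm_nonneg _) (zero_le_one.trans (one_le_zetaSum hs))
            exact Finset.prod_le_prod (fun _ _ => norm_nonneg _) fun a ha =>
              (hB a (Finset.mem_erase.1 ha).1 s hs hs2.le).trans (le_max_right _ _)
          · refine (Finset.prod_le_prod (fun _ _ => norm_nonneg _) fun P _ => hfac P).trans (le_of_eq ?_)
            rw [Finset.prod_ite, Finset.prod_const_one, mul_one, Finset.filter_mem_eq_inter,
              Finset.inter_eq_right.2 Finset.subset_union_left]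
  have hZ : 0 < zetaSum K s := zero_lt_one.trans_le (one_le_zetaSum hs)
  have hlog := Real.log_le_log (by positivity) hlow
  rw [Real.log_mul (by positivity) (Finset.prod_pos fun P _ => pow_pos (hpos P) _).ne',
    Real.log_mul hZ.ne' (by positivity), Real.log_prod fun P _ => (pow_pos (hpos P) _).ne',
    Real.log_pow, one_div, Real.log_inv, Nat.cast_pow] at hlog
  simp only [Real.log_pow, Nat.cast_pow, ← Finset.mul_sum] at hlog
  have hle : ∑ P ∈ T, Real.log (1 - nterm s P.asIdeal) ≤ -∑ P ∈ T, nterm s P.asIdeal := by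
    refine (Finset.sum_le_sum fun P _ => Real.log_le_sub_one_of_pos (hpos P)).trans ?_
    simp only [sub_sub_cancel_left, Finset.sum_neg_distrib]
    exact le_rfl
  have := mul_le_mul_of_nonneg_left hle hp0.le
  linarith [(abs_le.1 hsD).2]

end FLTAgent.TW.RayL
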