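import Fermat.Agent.TW.RayL.PrimeSums
import Mathlib.RingTheory.Ideal.Norm.RelNorm
import Mathlib.RingTheory.DedekindDomain.Different
import Mathlib.NumberTheory.RamificationInertia.Galois

/-!
# Degree one primes in an extension
-/

set_option autoImplicit false

noncomputable section

open Module NumberField IsDedekindDomain UniqueFactorizationMonoid Filter Topology

open scoped Pointwise

attribute [local instance] Classical.propDecidable

namespace FLTAgent.TW.RayL

variable {K : Type} [Field K] [NumberField K]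
  {L : Type} [Field L] [NumberField L] [Algebra K L]

/-- The prime below. -/
def below (Q : HeightOneSpectrum (𝓞 L)) : HeightOneSpectrum (𝓞 K) :=
  ⟨Q.asIdeal.under (𝓞 K), Q.isPrime.comap _, Ideal.under_ne_bot (𝓞 K) Q.ne_bot⟩

omit [NumberField K] [NumberField L] in
theorem below_eq_iff {Q : HeightOneSpectrum (𝓞 L)} {P : HeightOneSpectrum (𝓞 K)} :
    below Q = P ↔ Q.asIdeal.under (𝓞 K) = P.asIdeal :=
  ⟨fun h => h ▸ rfl, fun h => HeightOneSpectrum.ext h⟩

variable (K L) in
/-- Degree one primes with a degree one prime above. -/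
def splitSet : Set (HeightOneSpectrum (𝓞 K)) := {P | IsDegreeOne P ∧ HasDegreeOneAbove L P}

theorem absNorm_below_eq {Q : HeightOneSpectrum (𝓞 L)} (hQ : IsDegreeOne Q) :
    Ideal.absNorm (below (K := K) Q).asIdeal = Ideal.absNorm Q.asIdeal := by
  set φ : 𝓞 K ⧸ (below (K := K) Q).asIdeal →+* 𝓞 L ⧸ Q.asIdeal :=
    Ideal.quotientMap Q.asIdeal (algebraMap (𝓞 K) (𝓞 L)) le_rfl
  have hφ : Function.Injective φ := Ideal.quotientMap_injective' le_rfl
  have hdvd := AddSubgroup.card_dvd_of_injective φ.toAddMonoidHom hφ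
  rw [Ideal.absNorm_apply, Submodule.cardQuot_apply, Ideal.absNorm_apply, Submodule.cardQuot_apply]
  have h2 := two_le_absNorm (below (K := K) Q)
  rw [Ideal.absNorm_apply, Submodule.cardQuot_apply] at h2
  have hp : (Nat.card (𝓞 L ⧸ Q.asIdeal)).Prime := by
    have h := hQ
    rw [IsDegreeOne, Ideal.absNorm_apply, Submodule.cardQuot_apply] at h
    exact h
  rcases (Nat.dvd_prime hp).1 hdvd with h | h
  · omega
  · exact h

theorem isDegreeOne_below {Q : HeightOneSpectrum (𝓞 L)} (hQ : IsDegreeOne Q) :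
    IsDegreeOne (below (K := K) Q) := by
  rw [IsDegreeOne, absNorm_below_eq hQ]
  exact hQ

theorem below_mem_splitSet {Q : HeightOneSpectrum (𝓞 L)} (hQ : IsDegreeOne Q) :
    below (K := K) Q ∈ splitSet K L :=
  ⟨isDegreeOne_below hQ, Q, rfl, hQ⟩

theorem absNorm_map (I : Ideal (𝓞 K)) :
    Ideal.absNorm (I.map (algebraMap (𝓞 K) (𝓞 L))) = Ideal.absNorm I ^ finrank K L := by
  rw [Ideal.absNorm_algebraMap, ← IsFractionRing.finrank_eq (𝓞 K) K (𝓞 L) L]

theorem card_above_le (P : HeightOneSpectrum (𝓞 K)) (T : Finset (HeightOneSpectrum (𝓞 L)))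
    (hT : ∀ Q ∈ T, below Q = P ∧ IsDegreeOne Q) : T.card ≤ finrank K L := by
  have hdvd : ∏ Q ∈ T, Q.asIdeal ∣ P.asIdeal.map (algebraMap (𝓞 K) (𝓞 L)) := by
    have h := Finset.prod_primes_dvd (s := T.image fun Q => Q.asIdeal)
      (P.asIdeal.map (algebraMap (𝓞 K) (𝓞 L)))
      (fun I hI => by
        obtain ⟨Q, -, rfl⟩ := Finset.mem_image.1 hI
        exact Q.prime)
      (fun I hI => by
        obtain ⟨Q, hQ, rfl⟩ := Finset.mem_image.1 hI
        rw [Ideal.dvd_iff_le, Ideal.map_le_iff_le_comap]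
        exact (below_eq_iff.1 (hT Q hQ).1).ge)
    rwa [Finset.prod_image fun _ _ _ _ h => HeightOneSpectrum.ext h] at h
  have hn := map_dvd (Ideal.absNorm (S := 𝓞 L)) hdvd
  rw [map_prod, absNorm_map, Finset.prod_congr rfl fun Q hQ => by
    rw [← absNorm_below_eq (K := K) (hT Q hQ).2, (hT Q hQ).1], Finset.prod_const] at hn
  exact (Nat.pow_le_pow_iff_right (two_le_absNorm P)).1
    (Nat.le_of_dvd (pow_pos (zero_lt_two.trans_le (two_le_absNorm P)) _) hn)

/-- The degree one primes of `L` lie over split primes, at most `[L : K]` over each. -/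
theorem primeSum_degreeOne_le {s : ℝ} (hs : 1 < s) :
    primeSum {Q : HeightOneSpectrum (𝓞 L) | IsDegreeOne Q} s
      ≤ finrank K L * primeSum (splitSet K L) s := by
  refine primeSum_le_of_sum_le fun T hT => ?_
  rw [← Finset.sum_fiberwise_of_maps_to (fun Q hQ => Finset.mem_image_of_mem (below (K := K)) hQ)]
  calc ∑ P ∈ T.image (below (K := K)), ∑ Q ∈ T with below Q = P, nterm s Q.asIdeal
      = ∑ P ∈ T.image (below (K := K)),
          (({Q ∈ T | below Q = P}).card : ℝ) * nterm s P.asIdeal := by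
        refine Finset.sum_congr rfl fun P _ => ?_
        rw [← nsmul_eq_mul, ← Finset.sum_const]
        refine Finset.sum_congr rfl fun Q hQ => ?_
        rw [Finset.mem_filter] at hQ
        rw [nterm, nterm, ← hQ.2, absNorm_below_eq (hT Q hQ.1)]
    _ ≤ ∑ P ∈ T.image (below (K := K)), (finrank K L : ℝ) * nterm s P.asIdeal := by
        refine Finset.sum_le_sum fun P _ => mul_le_mul_of_nonneg_right ?_ (nterm_nonneg _ _)
        exact Nat.cast_le.2 (card_above_le P _ fun Q hQ =>
          ⟨(Finset.mem_filter.1 hQ).2, hT Q (Finset.mem_filter.1 hQ).1⟩)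
    _ ≤ _ := by
        rw [← Finset.mul_sum]
        refine mul_le_mul_of_nonneg_left (sum_nterm_le_primeSum _ (fun P hP => ?_) hs)
          (Nat.cast_nonneg _)
        obtain ⟨Q, hQ, rfl⟩ := Finset.mem_image.1 hP
        exact below_mem_splitSet (hT Q hQ)

variable (K L) in
/-- Primes below the different. -/
def ramSet : Set (HeightOneSpectrum (𝓞 K)) :=
  below '' {Q : HeightOneSpectrum (𝓞 L) | Q.asIdeal ∣ differentIdeal (𝓞 K) (𝓞 L)}

theorem ramSet_finite : (ramSet K L).Finite :=
  (Ideal.finite_factors (differentIdeal_ne_bot (A := 𝓞 K) (B := 𝓞 L))).image _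

theorem absNorm_eq_of_below_eq [IsGalois K L] {Q Q' : HeightOneSpectrum (𝓞 L)}
    (h : below (K := K) Q = below Q') :
    Ideal.absNorm Q.asIdeal = Ideal.absNorm Q'.asIdeal := by
  have := Q.isPrime
  have := Q'.isPrime
  obtain ⟨σ, hσ⟩ := Algebra.IsInvariant.exists_smul_of_under_eq (𝓞 K) (𝓞 L) Gal(L/K)
    Q.asIdeal Q'.asIdeal (congrArg HeightOneSpectrum.asIdeal h)
  rw [Ideal.absNorm_apply, Ideal.absNorm_apply, Submodule.cardQuot_apply, Submodule.cardQuot_apply]
  exact Nat.card_congr (Ideal.quotientEquiv _ _ (MulSemiringAction.toRingEquiv Gal(L/K) (𝓞 L) σ)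
    (hσ.trans (Ideal.pointwise_smul_def _))).toEquiv

/-- An unramified prime with a degree one prime above it in a Galois extension splits completely. -/
theorem exists_above [IsGalois K L] {P : HeightOneSpectrum (𝓞 K)} (hP : P ∈ splitSet K L)
    (hram : P ∉ ramSet K L) :
    ∃ T : Finset (HeightOneSpectrum (𝓞 L)), finrank K L ≤ T.card ∧
      ∀ Q ∈ T, below Q = P ∧ Ideal.absNorm Q.asIdeal = Ideal.absNorm P.asIdeal := by
  obtain ⟨-, Q₀, hQ₀, hQ₀1⟩ := hP
  have hQ₀' : below (K := K) Q₀ = P := below_eq_iff.2 hQ₀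
  set J : Ideal (𝓞 L) := P.asIdeal.map (algebraMap (𝓞 K) (𝓞 L))
  have hJ : J ≠ ⊥ := Ideal.map_ne_bot_of_ne_bot P.ne_bot
  have hall : ∀ I ∈ normalizedFactors J, ∃ Q : HeightOneSpectrum (𝓞 L), Q.asIdeal = I ∧
      below Q = P ∧ Ideal.absNorm I = Ideal.absNorm P.asIdeal := by
    intro I hI
    have hI' := (Ideal.mem_normalizedFactors_iff hJ).1 hI
    refine ⟨⟨I, hI'.1, ne_zero_of_mem_normalizedFactors hI⟩, rfl, ?_⟩
    have hb : below (K := K) ⟨I, hI'.1, ne_zero_of_mem_normalizedFactors hI⟩ = P :=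
      below_eq_iff.2 ((P.isPrime.isMaximal P.ne_bot).eq_of_le (hI'.1.comap _).ne_top
        (Ideal.map_le_iff_le_comap.1 hI'.2)).symm
    refine ⟨hb, ?_⟩
    rw [show I = (HeightOneSpectrum.mk I hI'.1 (ne_zero_of_mem_normalizedFactors hI)).asIdeal
      from rfl, absNorm_eq_of_below_eq (K := K) (Q' := Q₀) (hb.trans hQ₀'.symm),
      ← absNorm_below_eq (K := K) hQ₀1, hQ₀']
  have hcard : (normalizedFactors J).card = finrank K L := by
    have h := congrArg Ideal.absNorm (Ideal.prod_normalizedFactors_eq_self hJ)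
    rw [map_multiset_prod, absNorm_map, Multiset.map_congr rfl fun I hI => (hall I hI).choose_spec.2.2,
      Multiset.map_const', Multiset.prod_replicate] at h
    exact Nat.pow_right_injective (two_le_absNorm P) h
  have hnodup : (normalizedFactors J).Nodup := by
    refine Multiset.nodup_iff_count_le_one.2 fun I => ?_
    by_contra! hc
    obtain ⟨Q, rfl, hQ, -⟩ := hall I (Multiset.count_pos.1 (zero_lt_one.trans hc))
    refine hram ⟨Q, ?_, hQ⟩
    have hdvd : Q.asIdeal ^ 2 ∣ J := by
      rw [← Ideal.prod_normalizedFactors_eq_self hJ, ← Multiset.prod_replicate]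
      exact Multiset.prod_dvd_prod_of_le (Multiset.le_count_iff_replicate_le.1 hc)
    have := P.isPrime.isMaximal P.ne_bot
    simpa using pow_sub_one_dvd_differentIdeal (𝓞 K) Q.asIdeal 2 (p := P.asIdeal) P.ne_bot hdvd
  refine ⟨(normalizedFactors J).toFinset.attach.image
    fun I => (hall I.1 (Multiset.mem_toFinset.1 I.2)).choose, ?_, ?_⟩
  · rw [Finset.card_image_of_injective _ fun I I' h => Subtype.ext ?_, Finset.card_attach,
      Multiset.toFinset_card_of_nodup hnodup, hcard]
    rw [← (hall I.1 (Multiset.mem_toFinset.1 I.2)).choose_spec.1, h,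
      (hall I'.1 (Multiset.mem_toFinset.1 I'.2)).choose_spec.1]
  · intro Q hQ
    obtain ⟨I, -, rfl⟩ := Finset.mem_image.1 hQ
    obtain ⟨h1, h2, h3⟩ := (hall I.1 (Multiset.mem_toFinset.1 I.2)).choose_spec
    exact ⟨h2, by rw [h1]; exact h3⟩

/-- In a Galois extension `[L : K]` times the split primes are bounded by the primes of `L`. -/
theorem exists_splitSet_le [IsGalois K L] :
    ∃ D : ℝ, ∀ᶠ s in 𝓝[>] (1 : ℝ),
      (finrank K L : ℝ) * primeSum (splitSet K L) s ≤ Real.log (1 / (s - 1)) + D := by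
  obtain ⟨D, hD⟩ := exists_primeSum_le (K := L)
  refine ⟨D + finrank K L * (ramSet_finite (K := K) (L := L)).toFinset.card, ?_⟩
  filter_upwards [hD, self_mem_nhdsWithin] with s hsD (hs : 1 < s)
  have hd : (0 : ℝ) < finrank K L := Nat.cast_pos.2 Module.finrank_pos
  have hgood : (finrank K L : ℝ) * primeSum (splitSet K L \ ramSet K L) s
      ≤ primeSum (Set.univ : Set (HeightOneSpectrum (𝓞 L))) s := by
    rw [← le_div_iff₀' hd]
    refine primeSum_le_of_sum_le fun T hT => (le_div_iff₀' hd).2 ?_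
    choose! S hS using fun P (hP : P ∈ T) => exists_above (hT P hP).1 (hT P hP).2
    rw [Finset.mul_sum]
    have hdisj : (↑T : Set (HeightOneSpectrum (𝓞 K))).PairwiseDisjoint S := by
      intro P hP P' hP' hne
      exact Finset.disjoint_left.2 fun Q h h' =>
        hne (((hS P hP).2 Q h).1.symm.trans ((hS P' hP').2 Q h').1)
    refine le_trans (Finset.sum_le_sum fun P hP => ?_)
      ((le_of_eq (Finset.sum_biUnion hdisj).symm).trans
        (sum_nterm_le_primeSum (S := Set.univ) _ (fun _ _ => trivial) hs))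
    rw [Finset.sum_congr rfl fun Q hQ => show nterm s Q.asIdeal = nterm s P.asIdeal by
      rw [nterm, nterm, ((hS P hP).2 Q hQ).2], Finset.sum_const, nsmul_eq_mul]
    exact mul_le_mul_of_nonneg_right (Nat.cast_le.2 (hS P hP).1) (nterm_nonneg _ _)
  have hle := (primeSum_mono (show splitSet K L ⊆ (splitSet K L \ ramSet K L) ∪ ramSet K L from
      fun P hP => (em (P ∈ ramSet K L)).elim Or.inr fun h => Or.inl ⟨hP, h⟩) hs).trans
    (primeSum_union_le _ _ hs)
  have hram := primeSum_le_card (ramSet_finite (K := K) (L := L)) hs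
  have h1 := mul_le_mul_of_nonneg_left hle hd.le
  have h2 := mul_le_mul_of_nonneg_left hram hd.le
  linarith

/-- `[L : K]` times the split primes is at least `log (1/(s-1)) - O(1)`. -/
theorem exists_le_splitSet :
    ∃ D : ℝ, ∀ᶠ s in 𝓝[>] (1 : ℝ),
      Real.log (1 / (s - 1)) - D ≤ (finrank K L : ℝ) * primeSum (splitSet K L) s := by
  obtain ⟨D, hD⟩ := exists_le_primeSum_degreeOne (K := L)
  refine ⟨D, ?_⟩
  filter_upwards [hD, self_mem_nhdsWithin] with s hsD (hs : 1 < s)
  exact hsD.trans (primeSum_degreeOne_le hs)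

end FLTAgent.TW.RayL
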