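import Fermat.Agent.TW.RayL.Kernel
import Fermat.Agent.TW.RayL.Split
import Mathlib.LinearAlgebra.FiniteDimensional.Basic
import Mathlib.FieldTheory.Galois.Basic

/-!
# The second inequality and existence of degree one primes off a kernel
-/

set_option autoImplicit false

noncomputable section

open Module NumberField IsDedekindDomain Filter Topology

attribute [local instance] Classical.propDecidable

namespace FLTAgent.TW

namespace RayL

theorem tendsto_log_one_div_sub_one :
    Tendsto (fun s : ℝ => Real.log (1 / (s - 1))) (𝓝[>] 1) atTop := by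
  have h : Tendsto (fun s : ℝ => s - 1) (𝓝[>] 1) (𝓝[>] 0) :=
    tendsto_nhdsWithin_iff.2 ⟨tendsto_nhdsWithin_of_tendsto_nhds
      (by simpa using (tendsto_id (x := 𝓝 (1 : ℝ))).sub_const 1),
      eventually_nhdsWithin_of_forall fun s hs => Set.mem_Ioi.2 (sub_pos.2 hs)⟩
  simp only [one_div]
  exact Real.tendsto_log_atTop.comp (tendsto_inv_nhdsGT_zero.comp h)

theorem nonpos_of_eventually {a C : ℝ}
    (h : ∀ᶠ s in 𝓝[>] (1 : ℝ), a * Real.log (1 / (s - 1)) ≤ C) : a ≤ 0 := by
  by_contra! ha
  obtain ⟨s, h1, h2⟩ :=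
    (h.and (tendsto_log_one_div_sub_one.eventually_gt_atTop (C / a))).exists
  rw [div_lt_iff₀' ha] at h2
  linarith

variable {K : Type} [Field K] [NumberField K] {m : Ideal (𝓞 K)}

theorem finite_not_coprime (hm : m ≠ ⊥) :
    {P : HeightOneSpectrum (𝓞 K) | ¬ IsCoprime P.asIdeal m}.Finite := by
  refine (Ideal.finite_factors hm).subset fun P hP => Ideal.dvd_iff_le.2 ?_
  by_contra h
  refine hP (Ideal.isCoprime_iff_sup_eq.2 ?_)
  exact ((P.isPrime.isMaximal P.ne_bot).out).2 _
    (lt_of_le_of_ne le_sup_left fun he => h (he ▸ le_sup_right))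

variable {p : ℕ} [Fact p.Prime] {V : Type} [AddCommGroup V] [Module (ZMod p) V]

omit [NumberField K] in
theorem values_eq_span (χ : RayHom m V) :
    χ.values = (Submodule.span (ZMod p) (Set.range χ.toFun)).toAddSubgroup := by
  refine le_antisymm ((AddSubgroup.closure_le _).2 Submodule.subset_span) fun x hx => ?_
  have h : Submodule.span (ZMod p) (Set.range χ.toFun) ≤ AddSubgroup.toZModSubmodule p χ.values :=
    Submodule.span_le.2 fun y hy => AddSubgroup.subset_closure hy
  exact h hx

omit [NumberField K] in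
/-- Compose a character with coordinates on independent values. -/
theorem exists_coord (χ : RayHom m V) {n : ℕ} (v : Fin n → V) (hv : LinearIndependent (ZMod p) v)
    (hmem : ∀ i, v i ∈ χ.values) :
    ∃ χ' : RayHom m (Fin n → ZMod p), χ'.values = ⊤ ∧ ∀ I, χ.toFun I = 0 → χ'.toFun I = 0 := by
  obtain ⟨g, hg⟩ := LinearMap.exists_leftInverse_of_injective
    (Fintype.linearCombination (ZMod p) v)
    (LinearMap.ker_eq_bot.2 (linearIndependent_iff_injective_fintypeLinearCombination.1 hv))
  let χ' : RayHom m (Fin n → ZMod p) :=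
    { toFun := fun I => g (χ.toFun I)
      map_mul := fun I J h1 h2 h3 h4 => by rw [χ.map_mul I J h1 h2 h3 h4, map_add]
      map_ray := fun x h1 h2 => by rw [χ.map_ray x h1 h2, map_zero]
      eq_zero := fun I h => by rw [χ.eq_zero I h, map_zero] }
  refine ⟨χ', eq_top_iff.2 fun w _ => ?_, fun I h => show g (χ.toFun I) = 0 by rw [h, map_zero]⟩
  have hw : Fintype.linearCombination (ZMod p) v w ∈ χ.values := by
    rw [values_eq_span (p := p), Submodule.mem_toAddSubgroup, Fintype.linearCombination_apply]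
    exact sum_mem fun i _ => Submodule.smul_mem _ _ (by
      have h := hmem i
      rwa [values_eq_span (p := p), Submodule.mem_toAddSubgroup] at h)
  have hmap : χ.values.map g.toAddMonoidHom ≤ χ'.values := by
    rw [RayHom.values, AddMonoidHom.map_closure, ← Set.range_comp]
    exact le_rfl
  have h := hmap (AddSubgroup.mem_map_of_mem g.toAddMonoidHom hw)
  rwa [show g.toAddMonoidHom (Fintype.linearCombination (ZMod p) v w) = w from
    LinearMap.congr_fun hg w] at h

variable (L : Type) [Field L] [NumberField L] [Algebra K L]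

/-- The number of independent values is controlled by the degree. -/
theorem pow_le_finrank (hm : m ≠ ⊥) (χ : RayHom m V) {n : ℕ} (v : Fin n → V)
    (hv : LinearIndependent (ZMod p) v) (hmem : ∀ i, v i ∈ χ.values)
    (bad : Set (HeightOneSpectrum (𝓞 K))) (hbad : bad.Finite)
    (h : ∀ P, P ∉ bad → IsDegreeOne P → HasDegreeOneAbove L P → χ.toFun P.asIdeal = 0) :
    p ^ n ≤ finrank K L := by
  obtain ⟨χ', hval, hker⟩ := exists_coord χ v hv hmem
  obtain ⟨D₁, hD₁⟩ := exists_kernel_bound hm χ' hval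
  obtain ⟨D₂, hD₂⟩ := exists_le_splitSet (K := K) (L := L)
  have hB := hbad.union (finite_not_coprime hm)
  set c : ℝ := (hB.toFinset.card : ℝ)
  set q : ℝ := (p : ℝ) ^ n
  set d : ℝ := (finrank K L : ℝ)
  suffices hle : q - d ≤ 0 by
    have hle' := sub_nonpos.1 hle
    simp only [q, d] at hle'
    exact_mod_cast hle'
  refine nonpos_of_eventually (C := d * (D₁ + q * c) + q * D₂) ?_
  filter_upwards [hD₁, hD₂, self_mem_nhdsWithin] with s h1 h2 (hs : 1 < s)
  have hsub : splitSet K L ⊆ {P | IsCoprime P.asIdeal m ∧ χ'.toFun P.asIdeal = 0}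
      ∪ (bad ∪ {P | ¬ IsCoprime P.asIdeal m}) := by
    intro P hP
    by_cases hPb : P ∈ bad
    · exact Or.inr (Or.inl hPb)
    by_cases hPc : IsCoprime P.asIdeal m
    · exact Or.inl ⟨hPc, hker _ (h P hPb hP.1 hP.2)⟩
    · exact Or.inr (Or.inr hPc)
  have h3 := (primeSum_mono hsub hs).trans ((primeSum_union_le _ _ hs).trans
    (add_le_add_right (primeSum_le_card hB hs) _))
  have hq : 0 ≤ q := pow_nonneg (Nat.cast_nonneg _) _
  have hd : 0 ≤ d := Nat.cast_nonneg _
  have h4 := mul_le_mul_of_nonneg_left h3 (mul_nonneg hq hd)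
  have h5 := mul_le_mul_of_nonneg_left h1 hd
  have h6 := mul_le_mul_of_nonneg_left h2 hq
  linarith

end RayL

variable {K : Type} [Field K] [NumberField K]
variable {p : ℕ} [Fact p.Prime] {m : Ideal (𝓞 K)} {V : Type} [AddCommGroup V] [Module (ZMod p) V]

include p in
/-- Second inequality: if `χ` vanishes at almost all degree one primes with a degree one prime
above in the Galois extension `L`, its values form a group of order at most `[L : K]`. -/
theorem RayHom.natCard_values_le (hm : m ≠ ⊥) (χ : RayHom m V)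
    (L : Type) [Field L] [NumberField L] [Algebra K L] [IsGalois K L]
    (bad : Set (HeightOneSpectrum (𝓞 K))) (hbad : bad.Finite)
    (h : ∀ P, P ∉ bad → IsDegreeOne P → HasDegreeOneAbove L P → χ.toFun P.asIdeal = 0) :
    Finite χ.values ∧ Nat.card χ.values ≤ Module.finrank K L := by
  set U := Submodule.span (ZMod p) (Set.range χ.toFun)
  have key : ∀ n (v : Fin n → U), LinearIndependent (ZMod p) v → p ^ n ≤ finrank K L :=
    fun n v hv => RayL.pow_le_finrank L hm χ (fun i => (v i : V))
      (hv.map' U.subtype U.ker_subtype)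
      (fun i => (RayL.values_eq_span (p := p) χ).ge (v i).2) bad hbad h
  have hfin : FiniteDimensional (ZMod p) U := by
    by_contra hinf
    have hrank : ((finrank K L + 1 : ℕ) : Cardinal) ≤ Module.rank (ZMod p) U := by
      refine le_trans (Cardinal.natCast_lt_aleph0).le (not_lt.1 fun hlt => hinf ?_)
      exact Module.rank_lt_aleph0_iff.1 hlt
    obtain ⟨v, hv⟩ := exists_linearIndependent_of_le_rank hrank
    have h1 := key _ v hv
    have h2 := Nat.lt_pow_self (n := finrank K L + 1) (Fact.out : p.Prime).one_lt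
    omega
  have hUfin : Finite U := Module.finite_of_finite (ZMod p)
  have hcard : Nat.card U ≤ finrank K L := by
    rw [Module.natCard_eq_pow_finrank (K := ZMod p), Nat.card_zmod]
    exact key _ _ (Module.finBasis (ZMod p) U).linearIndependent
  rw [RayL.values_eq_span (p := p)]
  exact ⟨hUfin, hcard⟩

include p in
/-- A character vanishing at almost all degree one primes is zero. -/
theorem RayHom.eq_zero_of_degreeOne (hm : m ≠ ⊥) (χ : RayHom m V)
    (bad : Set (HeightOneSpectrum (𝓞 K))) (hbad : bad.Finite)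
    (h : ∀ P, P ∉ bad → IsDegreeOne P → χ.toFun P.asIdeal = 0) :
    ∀ I, χ.toFun I = 0 := by
  obtain ⟨hfin, hcard⟩ := RayHom.natCard_values_le (p := p) hm χ K bad hbad
    fun P h1 h2 _ => h P h1 h2
  rw [Module.finrank_self] at hcard
  intro I
  have := Finite.card_le_one_iff_subsingleton.1 hcard
  exact congrArg Subtype.val (Subsingleton.elim
    (⟨χ.toFun I, AddSubgroup.subset_closure ⟨I, rfl⟩⟩ : χ.values) 0)

/-- Existence of a degree one prime outside a finite set, not split in `L`, off the kernel. -/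
theorem RayHom.exists_prime (hp : p ≠ 2) (hm : m ≠ ⊥) (χ : RayHom m V) (hχ : ∃ I, χ.toFun I ≠ 0)
    (L : Type) [Field L] [NumberField L] [Algebra K L] [IsGalois K L]
    (hL : 2 ≤ Module.finrank K L)
    (bad : Set (HeightOneSpectrum (𝓞 K))) (hbad : bad.Finite) :
    ∃ P, P ∉ bad ∧ IsDegreeOne P ∧ ¬ HasDegreeOneAbove L P ∧ χ.toFun P.asIdeal ≠ 0 := by
  by_contra hcon
  push Not at hcon
  obtain ⟨I₀, hI₀⟩ := hχ
  obtain ⟨χ', hval, hker⟩ := RayL.exists_coord (p := p) χ (fun _ : Fin 1 => χ.toFun I₀)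
    (linearIndependent_unique_iff.2 hI₀) (fun _ => AddSubgroup.subset_closure ⟨I₀, rfl⟩)
  obtain ⟨D₀, hD₀⟩ := RayL.exists_le_primeSum_degreeOne (K := K)
  obtain ⟨D₁, hD₁⟩ := RayL.exists_kernel_bound hm χ' hval
  obtain ⟨D₂, hD₂⟩ := RayL.exists_splitSet_le (K := K) (L := L)
  have hB := hbad.union (RayL.finite_not_coprime hm)
  set c : ℝ := (hB.toFinset.card : ℝ)
  set d : ℝ := (finrank K L : ℝ)
  simp only [pow_one] at hD₁
  have hp3 : (3 : ℝ) ≤ p := by
    exact_mod_cast (Nat.lt_of_le_of_ne (Fact.out : p.Prime).two_le hp.symm : 2 < p)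
  have hd2 : (2 : ℝ) ≤ d := Nat.ofNat_le_cast.2 hL
  suffices hle : d * p - p - d ≤ 0 by nlinarith
  refine RayL.nonpos_of_eventually (C := d * p * (D₀ + c) + p * D₂ + d * D₁) ?_
  filter_upwards [hD₀, hD₁, hD₂, self_mem_nhdsWithin] with s h0 h1 h2 (hs : 1 < s)
  have hsub : {P : HeightOneSpectrum (𝓞 K) | IsDegreeOne P} ⊆
      (RayL.splitSet K L ∪ {P | IsCoprime P.asIdeal m ∧ χ'.toFun P.asIdeal = 0})
        ∪ (bad ∪ {P | ¬ IsCoprime P.asIdeal m}) := by
    intro P hP
    by_cases hPb : P ∈ bad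
    · exact Or.inr (Or.inl hPb)
    by_cases hPc : IsCoprime P.asIdeal m
    · by_cases hPs : HasDegreeOneAbove L P
      · exact Or.inl (Or.inl ⟨hP, hPs⟩)
      · exact Or.inl (Or.inr ⟨hPc, hker _ (hcon P hPb hP hPs)⟩)
    · exact Or.inr (Or.inr hPc)
  have h3 := (RayL.primeSum_mono hsub hs).trans ((RayL.primeSum_union_le _ _ hs).trans
    (add_le_add (RayL.primeSum_union_le _ _ hs) (RayL.primeSum_le_card hB hs)))
  have hp0 : (0 : ℝ) ≤ p := Nat.cast_nonneg _
  have hd : 0 ≤ d := Nat.cast_nonneg _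
  have h4 := mul_le_mul_of_nonneg_left (h0.trans h3) (mul_nonneg hd hp0)
  have h5 := mul_le_mul_of_nonneg_left h1 hd
  have h6 := mul_le_mul_of_nonneg_left h2 hp0
  linarith

/-- Degree one primes not split in a nontrivial Galois extension are infinite in number. -/
theorem exists_not_hasDegreeOneAbove
    (L : Type) [Field L] [NumberField L] [Algebra K L] [IsGalois K L]
    (hL : 2 ≤ Module.finrank K L)
    (bad : Set (HeightOneSpectrum (𝓞 K))) (hbad : bad.Finite) :
    ∃ P, P ∉ bad ∧ IsDegreeOne P ∧ ¬ HasDegreeOneAbove L P := by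
  by_contra hcon
  push Not at hcon
  obtain ⟨D₀, hD₀⟩ := RayL.exists_le_primeSum_degreeOne (K := K)
  obtain ⟨D₂, hD₂⟩ := RayL.exists_splitSet_le (K := K) (L := L)
  set c : ℝ := (hbad.toFinset.card : ℝ)
  set d : ℝ := (finrank K L : ℝ)
  have hd2 : (2 : ℝ) ≤ d := Nat.ofNat_le_cast.2 hL
  suffices hle : d - 1 ≤ 0 by linarith
  refine RayL.nonpos_of_eventually (C := d * (D₀ + c) + D₂) ?_
  filter_upwards [hD₀, hD₂, self_mem_nhdsWithin] with s h0 h2 (hs : 1 < s)
  have hsub : {P : HeightOneSpectrum (𝓞 K) | IsDegreeOne P} ⊆ RayL.splitSet K L ∪ bad :=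
    fun P hP => (em (P ∈ bad)).elim Or.inr fun hPb => Or.inl ⟨hP, hcon P hPb hP⟩
  have h3 := (RayL.primeSum_mono hsub hs).trans ((RayL.primeSum_union_le _ _ hs).trans
    (add_le_add_right (RayL.primeSum_le_card hbad hs) _))
  have h4 := mul_le_mul_of_nonneg_left (h0.trans h3) (zero_le_two.trans hd2)
  linarith

end FLTAgent.TW
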