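import Fermat.Agent.TW.RayL.LatticeSum
import Mathlib.NumberTheory.NumberField.CanonicalEmbedding.FundamentalCone

/-!
# A smooth fundamental domain for the units

`weight` is a Lipschitz function of the logarithmic absolute values with compact support modulo
scaling whose translates by the free part of the units sum to one.
-/

set_option autoImplicit false

noncomputable section

open Module NumberField NumberField.InfinitePlace NumberField.mixedEmbedding NumberField.Units
  NumberField.Units.dirichletUnitTheorem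

namespace FLTAgent.TW.RayL

/-- The tent function, whose integer translates sum to one. -/
def tent (t : ℝ) : ℝ := max 0 (1 - |t|)

theorem tent_nonneg (t : ℝ) : 0 ≤ tent t := le_max_left _ _

theorem tent_le_one (t : ℝ) : tent t ≤ 1 := max_le zero_le_one (by linarith [abs_nonneg t])

theorem tent_eq_zero {t : ℝ} (h : 1 ≤ |t|) : tent t = 0 := max_eq_left (by linarith)

theorem abs_tent_sub_le (s t : ℝ) : |tent s - tent t| ≤ |s - t| := by
  refine (abs_max_sub_max_le_max _ _ _ _).trans (max_le (by simp) ?_)
  rw [sub_sub_sub_cancel_left, abs_sub_comm]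
  exact abs_abs_sub_abs_le_abs_sub s t

/-- The two integers where a translate of the tent can be nonzero. -/
def tentSupport (t : ℝ) : Finset ℤ := {-⌊t⌋, -⌊t⌋ - 1}

theorem tent_add_eq_zero_of_notMem {t : ℝ} {k : ℤ} (hk : k ∉ tentSupport t) :
    tent (t + k) = 0 := by
  refine tent_eq_zero ?_
  simp only [tentSupport, Finset.mem_insert, Finset.mem_singleton, not_or] at hk
  have h1 := Int.floor_le t
  have h2 := Int.lt_floor_add_one t
  rcases lt_trichotomy k (-⌊t⌋ - 1) with h | h | h
  · have : (k : ℝ) ≤ -(⌊t⌋ : ℝ) - 2 := by exact_mod_cast (by omega : k ≤ -⌊t⌋ - 2)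
    rw [le_abs]; right; linarith
  · exact absurd h hk.2
  · have : -(⌊t⌋ : ℝ) + 1 ≤ (k : ℝ) := by exact_mod_cast (by omega : -⌊t⌋ + 1 ≤ k)
    rw [le_abs]; left; linarith

theorem sum_tent_add (t : ℝ) : ∑ k ∈ tentSupport t, tent (t + k) = 1 := by
  rw [tentSupport, Finset.sum_pair (by omega), tent, tent]
  have h1 := Int.floor_le t
  have h2 := Int.lt_floor_add_one t
  push_cast
  rw [abs_of_nonneg (a := t + -(⌊t⌋ : ℝ)) (by linarith),
    abs_of_nonpos (a := t + (-(⌊t⌋ : ℝ) - 1)) (by linarith), max_eq_right (by linarith),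
    max_eq_right (by linarith)]
  ring

theorem prod_tent_sub_le {ι : Type*} [Fintype ι] (s t : ι → ℝ) :
    |∏ i, tent (s i) - ∏ i, tent (t i)| ≤ ∑ i, |s i - t i| := by
  classical
  have key : ∀ u : Finset ι, |∏ i ∈ u, tent (s i) - ∏ i ∈ u, tent (t i)| ≤ ∑ i ∈ u, |s i - t i| := by
    intro u
    induction u using Finset.induction with
    | empty => simp
    | insert a u ha ih =>
      rw [Finset.prod_insert ha, Finset.prod_insert ha, Finset.sum_insert ha]
      set A := ∏ i ∈ u, tent (s i)
      set B := ∏ i ∈ u, tent (t i)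
      have hB : |B| ≤ 1 := by
        rw [abs_of_nonneg (Finset.prod_nonneg fun i _ => tent_nonneg _)]
        exact Finset.prod_le_one (fun i _ => tent_nonneg _) fun i _ => tent_le_one _
      calc |tent (s a) * A - tent (t a) * B|
          = |tent (s a) * (A - B) + (tent (s a) - tent (t a)) * B| := by ring_nf
        _ ≤ |tent (s a) * (A - B)| + |(tent (s a) - tent (t a)) * B| := abs_add_le _ _
        _ ≤ ∑ i ∈ u, |s i - t i| + |s a - t a| := by
            rw [abs_mul, abs_mul]
            refine add_le_add ((mul_le_of_le_one_left (abs_nonneg _) ?_).trans ih)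
              ((mul_le_of_le_one_right (abs_nonneg _) hB).trans (abs_tent_sub_le _ _))
            rw [abs_of_nonneg (tent_nonneg _)]
            exact tent_le_one _
        _ = _ := add_comm _ _
  exact key Finset.univ

attribute [local instance] Classical.propDecidable

variable (K : Type*) [Field K] [NumberField K]

/-- The weighted average of the coordinates. -/
def avg (a : InfinitePlace K → ℝ) : ℝ :=
  (∑ v : InfinitePlace K, (mult v : ℝ) * a v) * (finrank ℚ K : ℝ)⁻¹

/-- The linear map underlying `logMap`. -/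
def logLin : (InfinitePlace K → ℝ) →ₗ[ℝ] logSpace K where
  toFun a w := (mult w.1 : ℝ) * (a w.1 - avg K a)
  map_add' a b := by
    ext w
    simp only [avg, Pi.add_apply, mul_add, Finset.sum_add_distrib]
    ring
  map_smul' c a := by
    ext w
    simp only [avg, Pi.smul_apply, smul_eq_mul, RingHom.id_apply, mul_left_comm _ c,
      ← Finset.mul_sum]
    ring

/-- The coordinates with respect to the fundamental units. -/
def unitCoord : (InfinitePlace K → ℝ) →ₗ[ℝ] (Fin (rank K) → ℝ) :=
  (((basisUnitLattice K).ofZLatticeBasis ℝ (unitLattice K)).equivFun : logSpace K →ₗ[ℝ] _) ∘ₗ logLin K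

/-- The weight. -/
def weight (a : InfinitePlace K → ℝ) : ℝ := ∏ i, tent (unitCoord K a i)

theorem weight_nonneg (a : InfinitePlace K → ℝ) : 0 ≤ weight K a :=
  Finset.prod_nonneg fun _ _ => tent_nonneg _

theorem weight_le_one (a : InfinitePlace K → ℝ) : weight K a ≤ 1 :=
  Finset.prod_le_one (fun _ _ => tent_nonneg _) fun _ _ => tent_le_one _

theorem exists_weight_lipschitz :
    ∃ C : ℝ, 0 ≤ C ∧ ∀ a b, |weight K a - weight K b| ≤ C * ‖a - b‖ := by
  set T := LinearMap.toContinuousLinearMap (unitCoord K)
  refine ⟨rank K * ‖T‖, by positivity, fun a b => (prod_tent_sub_le _ _).trans ?_⟩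
  calc ∑ i, |unitCoord K a i - unitCoord K b i|
      ≤ ∑ _i : Fin (rank K), ‖T‖ * ‖a - b‖ := Finset.sum_le_sum fun i _ => by
        rw [← Pi.sub_apply, ← map_sub, ← Real.norm_eq_abs]
        exact (norm_le_pi_norm _ i).trans (T.le_opNorm (a - b))
    _ = rank K * ‖T‖ * ‖a - b‖ := by simp [mul_assoc]

theorem sum_mult_mul_sub_avg (a : InfinitePlace K → ℝ) :
    ∑ v : InfinitePlace K, (mult v : ℝ) * (a v - avg K a) = 0 := by
  simp only [mul_sub, Finset.sum_sub_distrib, ← Finset.sum_mul]
  rw [← Nat.cast_sum, sum_mult_eq, avg, mul_left_comm, mul_inv_cancel₀, mul_one, sub_self]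
  exact Nat.cast_ne_zero.2 Module.finrank_pos.ne'

theorem exists_weight_support :
    ∃ M : ℝ, 0 ≤ M ∧ ∀ a, weight K a ≠ 0 → ∀ v w : InfinitePlace K, a v - a w ≤ M := by
  classical
  set e := LinearMap.toContinuousLinearMap
    ((basisUnitLattice K).ofZLatticeBasis ℝ (unitLattice K)).equivFun.symm.toLinearMap
  set C : ℝ := ‖e‖ + (Fintype.card (InfinitePlace K) : ℝ) * ‖e‖
  have hC : 0 ≤ C := add_nonneg (norm_nonneg _) (mul_nonneg (Nat.cast_nonneg _) (norm_nonneg _))
  refine ⟨C + C, add_nonneg hC hC, fun a ha v w => ?_⟩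
  have hcoord : ‖unitCoord K a‖ ≤ 1 := (pi_norm_le_iff_of_nonneg zero_le_one).2 fun i => by
    rw [Real.norm_eq_abs]
    by_contra h
    exact ha (Finset.prod_eq_zero (Finset.mem_univ i) (tent_eq_zero (le_of_not_ge h)))
  have hlin : ‖logLin K a‖ ≤ ‖e‖ := by
    have h : e (unitCoord K a) = logLin K a :=
      ((basisUnitLattice K).ofZLatticeBasis ℝ (unitLattice K)).equivFun.symm_apply_apply (logLin K a)
    rw [← h]
    exact (e.le_opNorm _).trans (mul_le_of_le_one_right (norm_nonneg _) hcoord)
  have hne : ∀ u : InfinitePlace K, u ≠ w₀ → |(mult u : ℝ) * (a u - avg K a)| ≤ ‖e‖ :=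
    fun u hu => ((Real.norm_eq_abs _).symm.le.trans (norm_le_pi_norm (logLin K a) ⟨u, hu⟩)).trans hlin
  have hmult : ∀ u : InfinitePlace K,
      |a u - avg K a| ≤ |(mult u : ℝ) * (a u - avg K a)| := fun u => by
    rw [abs_mul, Nat.abs_cast]
    exact le_mul_of_one_le_left (abs_nonneg _) (by exact_mod_cast mult_pos)
  have hall : ∀ u : InfinitePlace K, |a u - avg K a| ≤ C := fun u => by
    refine (hmult u).trans ?_
    rcases eq_or_ne u w₀ with rfl | hu
    · have hsum := sum_mult_mul_sub_avg K a
      rw [← Finset.add_sum_erase _ _ (Finset.mem_univ w₀), add_eq_zero_iff_eq_neg] at hsum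
      rw [hsum, abs_neg]
      refine (Finset.abs_sum_le_sum_abs _ _).trans ?_
      refine (Finset.sum_le_card_nsmul _ _ ‖e‖ fun u hu => hne u (Finset.ne_of_mem_erase hu)).trans ?_
      rw [nsmul_eq_mul]
      exact le_add_of_nonneg_of_le (norm_nonneg _) (mul_le_mul_of_nonneg_right
        (Nat.cast_le.2 (Finset.card_le_univ _)) (norm_nonneg _))
    · exact (hne u hu).trans (le_add_of_nonneg_right (mul_nonneg (Nat.cast_nonneg _) (norm_nonneg _)))
  have h1 := (abs_le.1 (hall v)).2
  have h2 := (abs_le.1 (hall w)).1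
  linarith

variable {K}

/-- The signs at the real places. -/
def realSigns (x : mixedSpace K) (w : {w : InfinitePlace K // IsReal w}) : Bool :=
  decide (0 < x.1 w)

theorem realSigns_eq_of_norm_lt {x y : mixedSpace K}
    (h : ∀ w : InfinitePlace K, ‖x - y‖ < normAtPlace w x) : realSigns y = realSigns x := by
  funext w
  have h1 := h w.1
  rw [normAtPlace_apply_of_isReal w.2, Real.norm_eq_abs] at h1
  have h2 : |x.1 w - y.1 w| ≤ ‖x - y‖ :=
    (Real.norm_eq_abs _).symm.le.trans ((norm_le_pi_norm (x.1 - y.1) w).trans (norm_fst_le (x - y)))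
  have := abs_lt.1 (h2.trans_lt h1)
  simp only [realSigns, decide_eq_decide]
  rcases le_total 0 (x.1 w) with hx | hx
  · rw [abs_of_nonneg hx] at this
    constructor <;> intro <;> linarith [abs_nonneg (x.1 w - y.1 w)]
  · rw [abs_of_nonpos hx] at this
    constructor <;> intro <;> linarith [abs_nonneg (x.1 w - y.1 w)]

variable (K) in
/-- The shape: absolute values at the places, the unit weight, and a function of the real signs. -/
def unitShape (h : ({w : InfinitePlace K // IsReal w} → Bool) → ℝ) (hh : ∀ σ, |h σ| ≤ 1) :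
    Shape (mixedSpace K) (InfinitePlace K) where
  p := fun w x => normAtPlace w x
  m := mult
  W := weight K
  g x := h (realSigns x)
  p_nonneg := normAtPlace_nonneg
  p_le_norm w x := by
    rw [norm_eq_sup'_normAtPlace]
    exact Finset.le_sup' (fun w => normAtPlace w x) (Finset.mem_univ w)
  p_lipschitz w x y := by
    have hle : ∀ z : mixedSpace K, normAtPlace w z ≤ ‖z‖ := fun z => by
      rw [norm_eq_sup'_normAtPlace]
      exact Finset.le_sup' (fun w => normAtPlace w z) (Finset.mem_univ w)
    have h1 := normAtPlace_add_le w (x - y) y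
    have h2 := normAtPlace_add_le w (y - x) x
    rw [sub_add_cancel] at h1 h2
    have h3 := hle (x - y)
    have h4 := hle (y - x)
    rw [norm_sub_rev y x] at h4
    exact abs_sub_le_iff.2 ⟨by linarith, by linarith⟩
  exists_norm_le x := by
    obtain ⟨w, -, hw⟩ := Finset.exists_mem_eq_sup' Finset.univ_nonempty
      (fun w : InfinitePlace K => normAtPlace w x)
    exact ⟨w, by rw [norm_eq_sup'_normAtPlace]; exact hw.le⟩
  Λ := max 1 (exists_weight_lipschitz K).choose
  Λ_nonneg := zero_le_one.trans (le_max_left _ _)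
  W_le a := by
    rw [abs_of_nonneg (weight_nonneg K a)]
    exact (weight_le_one K a).trans (le_max_left _ _)
  W_lipschitz a b := ((exists_weight_lipschitz K).choose_spec.2 a b).trans
    (mul_le_mul_of_nonneg_right (le_max_right _ _) (norm_nonneg _))
  M := (exists_weight_support K).choose
  M_nonneg := (exists_weight_support K).choose_spec.1
  W_support := (exists_weight_support K).choose_spec.2
  g_le x := hh _
  g_locally_constant x y hxy := congrArg h (realSigns_eq_of_norm_lt hxy)

@[simp] theorem unitShape_deg (h : ({w : InfinitePlace K // IsReal w} → Bool) → ℝ)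
    (hh : ∀ σ, |h σ| ≤ 1) : (unitShape K h hh).deg = finrank ℚ K := sum_mult_eq

theorem unitShape_nrm (h : ({w : InfinitePlace K // IsReal w} → Bool) → ℝ)
    (hh : ∀ σ, |h σ| ≤ 1) (x : mixedSpace K) :
    (unitShape K h hh).nrm x = mixedEmbedding.norm x := rfl

variable (K) in
/-- The unit with given exponents at the fundamental units. -/
def unitOfExponents (k : Fin (rank K) → ℤ) : (𝓞 K)ˣ := ∏ i, fundSystem K i ^ k i

theorem unitCoord_smul {x : mixedSpace K} (hx : mixedEmbedding.norm x ≠ 0)
    (k : Fin (rank K) → ℤ) (i : Fin (rank K)) :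
    unitCoord K (fun w => Real.log (normAtPlace w (unitOfExponents K k • x))) i
      = unitCoord K (fun w => Real.log (normAtPlace w x)) i + k i := by
  have hlin : ∀ y : mixedSpace K, mixedEmbedding.norm y ≠ 0 →
      logLin K (fun w => Real.log (normAtPlace w y)) = logMap y := by
    intro y hy
    ext w
    have hlog : Real.log (mixedEmbedding.norm y)
        = ∑ v : InfinitePlace K, (mult v : ℝ) * Real.log (normAtPlace v y) := by
      rw [mixedEmbedding.norm_apply, Real.log_prod]
      · exact Finset.sum_congr rfl fun v _ => Real.log_pow _ _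
      · exact fun v _ => pow_ne_zero _ (mixedEmbedding.norm_ne_zero_iff.1 hy v)
    rw [logMap_apply, hlog]
    rfl
  have hux : mixedEmbedding.norm (unitOfExponents K k • x) ≠ 0 := by rwa [norm_unit_smul]
  have hemb : logEmbedding K (Additive.ofMul (unitOfExponents K k))
      = ∑ j, (k j : ℝ) • ((basisUnitLattice K).ofZLatticeBasis ℝ (unitLattice K)) j := by
    rw [unitOfExponents, ofMul_prod, map_sum]
    refine Finset.sum_congr rfl fun j _ => ?_
    rw [ofMul_zpow, map_zsmul, logEmbedding_fundSystem, Basis.ofZLatticeBasis_apply,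
      Int.cast_smul_eq_zsmul]
  simp only [unitCoord, LinearMap.comp_apply, LinearEquiv.coe_coe]
  rw [hlin _ hx, hlin _ hux, logMap_unit_smul _ hx, map_add, hemb, Pi.add_apply, add_comm]
  simp [Finset.sum_apply, Finsupp.single_apply]

/-- The translates of the weight by the free part of the units sum to one. -/
theorem hasSum_weight_smul {x : mixedSpace K} (hx : mixedEmbedding.norm x ≠ 0) :
    HasSum (fun k : Fin (rank K) → ℤ =>
      weight K (fun w => Real.log (normAtPlace w (unitOfExponents K k • x)))) 1 := by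
  classical
  set c := unitCoord K (fun w => Real.log (normAtPlace w x))
  have heq : ∀ k : Fin (rank K) → ℤ,
      weight K (fun w => Real.log (normAtPlace w (unitOfExponents K k • x)))
        = ∏ i, tent (c i + k i) :=
    fun k => Finset.prod_congr rfl fun i _ => by rw [unitCoord_smul hx]
  simp only [heq]
  have h1 : (1 : ℝ) = ∑ k ∈ Fintype.piFinset fun i => tentSupport (c i), ∏ i, tent (c i + k i) := by
    rw [← Finset.prod_univ_sum (fun i => tentSupport (c i))
      (fun i (j : ℤ) => tent (c i + (j : ℝ)))]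
    simp [sum_tent_add]
  rw [h1]
  refine hasSum_sum_of_ne_finset_zero fun k hk => ?_
  rw [Fintype.mem_piFinset, not_forall] at hk
  obtain ⟨i, hi⟩ := hk
  exact Finset.prod_eq_zero (Finset.mem_univ i) (tent_add_eq_zero_of_notMem hi)

end FLTAgent.TW.RayL
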