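import Mathlib.NumberTheory.NumberField.Basic
import Mathlib.RingTheory.DedekindDomain.Ideal.Lemmas
import Mathlib.RingTheory.Ideal.Norm.AbsNorm

/-!
# Additive ray class characters and degree one primes
-/

set_option autoImplicit false

open NumberField IsDedekindDomain

namespace FLTAgent.TW

variable {K : Type} [Field K] [NumberField K]

/-- Degree one primes. -/
def IsDegreeOne (P : HeightOneSpectrum (𝓞 K)) : Prop := (Ideal.absNorm P.asIdeal).Prime

/-- An additive character on the nonzero ideals prime to `m`, trivial on `x ≡ 1 mod m`. -/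
structure RayHom (m : Ideal (𝓞 K)) (V : Type) [AddCommGroup V] where
  toFun : Ideal (𝓞 K) → V
  map_mul : ∀ I J : Ideal (𝓞 K), I ≠ ⊥ → J ≠ ⊥ → IsCoprime I m → IsCoprime J m →
    toFun (I * J) = toFun I + toFun J
  map_ray : ∀ x : 𝓞 K, x ≠ 0 → x - 1 ∈ m → toFun (Ideal.span {x}) = 0
  eq_zero : ∀ I : Ideal (𝓞 K), (I = ⊥ ∨ ¬ IsCoprime I m) → toFun I = 0

/-- The subgroup of values. -/
def RayHom.values {m : Ideal (𝓞 K)} {V : Type} [AddCommGroup V] (χ : RayHom m V) : AddSubgroup V :=
  AddSubgroup.closure (Set.range χ.toFun)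

/-- `P` has a degree one prime above it in `L`. -/
def HasDegreeOneAbove (L : Type) [Field L] [NumberField L] [Algebra K L]
    (P : HeightOneSpectrum (𝓞 K)) : Prop :=
  ∃ Q : HeightOneSpectrum (𝓞 L), Q.asIdeal.under (𝓞 K) = P.asIdeal ∧ IsDegreeOne Q

end FLTAgent.TW
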