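import Fermat.Agent.TW.RayL.Periodic
import Mathlib.RingTheory.ClassGroup.Basic
import Mathlib.RingTheory.DedekindDomain.Factorization
import Mathlib.NumberTheory.NumberField.ClassNumber
import Mathlib.NumberTheory.NumberField.Ideal.Basic

/-!
# Boundedness of L-series of nontrivial ray class characters near `1`

For a character `ψ` of ideals prime to `m`, trivial on the ray, and an ideal `B` prime to `m`, the
sum over a class of the ideals divisible by `B` is, up to a bounded error, `N(B)⁻¹` times the sum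
over the whole class.  Comparing with the factor `ψ B * N(B)^(-s)` given by multiplicativity bounds
the L-series as soon as `ψ B ≠ 1`.
-/

set_option autoImplicit false

noncomputable section

open Module NumberField NumberField.Units

open scoped nonZeroDivisors

attribute [local instance] Classical.propDecidable

namespace FLTAgent.TW.RayL

variable {K : Type*} [Field K] [NumberField K]

/-- `N(I)^(-s)`. -/
def nterm (s : ℝ) (I : Ideal (𝓞 K)) : ℝ := (Ideal.absNorm I : ℝ) ^ (-s)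

theorem nterm_nonneg (s : ℝ) (I : Ideal (𝓞 K)) : 0 ≤ nterm s I :=
  Real.rpow_nonneg (Nat.cast_nonneg _) _

theorem nterm_mul (s : ℝ) (I J : Ideal (𝓞 K)) : nterm s (I * J) = nterm s I * nterm s J := by
  rw [nterm, nterm, nterm, map_mul, Nat.cast_mul,
    Real.mul_rpow (Nat.cast_nonneg _) (Nat.cast_nonneg _)]

theorem nterm_one (s : ℝ) : nterm s (1 : Ideal (𝓞 K)) = 1 := by
  rw [nterm, map_one, Nat.cast_one, Real.one_rpow]

theorem nterm_bot {s : ℝ} (hs : s ≠ 0) : nterm s (⊥ : Ideal (𝓞 K)) = 0 := by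
  rw [nterm, Ideal.absNorm_bot, Nat.cast_zero, Real.zero_rpow (neg_ne_zero.2 hs)]

theorem absNorm_pos {I : Ideal (𝓞 K)} (hI : I ≠ ⊥) : (0 : ℝ) < Ideal.absNorm I :=
  Nat.cast_pos.2 (Nat.pos_of_ne_zero (mt Ideal.absNorm_eq_zero_iff.1 hI))

theorem nterm_pos (s : ℝ) {I : Ideal (𝓞 K)} (hI : I ≠ ⊥) : 0 < nterm s I :=
  Real.rpow_pos_of_pos (absNorm_pos hI) _

theorem nterm_le_one {s : ℝ} (hs : 0 ≤ s) {I : Ideal (𝓞 K)} (hI : I ≠ ⊥) : nterm s I ≤ 1 :=
  Real.rpow_le_one_of_one_le_of_nonpos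
    (Nat.one_le_cast.2 (Nat.one_le_iff_ne_zero.2 (mt Ideal.absNorm_eq_zero_iff.1 hI)))
    (neg_nonpos.2 hs)

/-- A complex character of the ideals prime to `m`, trivial on the ray. -/
structure RayChar (m : Ideal (𝓞 K)) where
  toFun : Ideal (𝓞 K) →*₀ ℂ
  norm_eq : ∀ I, I ≠ ⊥ → IsCoprime I m → ‖toFun I‖ = 1
  eq_zero : ∀ I, ¬ IsCoprime I m → toFun I = 0
  ray : ∀ x : 𝓞 K, x ≠ 0 → x - 1 ∈ m → toFun (Ideal.span {x}) = 1

namespace RayChar

variable {m : Ideal (𝓞 K)} (ψ : RayChar m)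

omit [NumberField K] in
theorem norm_le_one (I : Ideal (𝓞 K)) : ‖ψ.toFun I‖ ≤ 1 := by
  rcases eq_or_ne I ⊥ with rfl | hI
  · rw [show ψ.toFun ⊥ = 0 from map_zero ψ.toFun, norm_zero]
    exact zero_le_one
  · by_cases h : IsCoprime I m
    · exact (ψ.norm_eq I hI h).le
    · rw [ψ.eq_zero I h, norm_zero]
      exact zero_le_one

/-- A term of the L-series. -/
def term (s : ℝ) (I : Ideal (𝓞 K)) : ℂ := ψ.toFun I * (nterm s I : ℂ)

theorem norm_term_le (s : ℝ) (I : Ideal (𝓞 K)) : ‖ψ.term s I‖ ≤ nterm s I := by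
  rw [term, norm_mul, Complex.norm_real, Real.norm_eq_abs, abs_of_nonneg (nterm_nonneg _ _)]
  exact mul_le_of_le_one_left (nterm_nonneg _ _) (ψ.norm_le_one I)

theorem term_bot (s : ℝ) : ψ.term s (⊥ : Ideal (𝓞 K)) = 0 := by
  rw [term, show ψ.toFun ⊥ = 0 from map_zero ψ.toFun, zero_mul]

theorem term_mul (s : ℝ) (I J : Ideal (𝓞 K)) :
    ψ.term s (I * J) = ψ.term s I * ψ.term s J := by
  rw [term, term, term, map_mul, nterm_mul, Complex.ofReal_mul]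
  ring

end RayChar

/-- The class of an ideal (trivial for the zero ideal). -/
def cls (I : Ideal (𝓞 K)) : ClassGroup (𝓞 K) :=
  if h : I = ⊥ then 1 else ClassGroup.mk0 ⟨I, mem_nonZeroDivisors_of_ne_zero h⟩

theorem cls_mk0 (I : (Ideal (𝓞 K))⁰) : cls (I : Ideal (𝓞 K)) = ClassGroup.mk0 I := by
  exact dif_neg (nonZeroDivisors.coe_ne_zero I)

theorem exists_rep (C : ClassGroup (𝓞 K)) {m : Ideal (𝓞 K)} (hm : m ≠ ⊥) :
    ∃ J : (Ideal (𝓞 K))⁰, IsCoprime (J : Ideal (𝓞 K)) m ∧ ClassGroup.mk0 J = C⁻¹ := by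
  obtain ⟨I, rfl⟩ := ClassGroup.mk0_surjective C
  have hI : (I : Ideal (𝓞 K)) ≠ ⊥ := nonZeroDivisors.coe_ne_zero I
  by_cases hmt : m = ⊤
  · subst hmt
    obtain ⟨J, hJ⟩ := ClassGroup.mk0_surjective (ClassGroup.mk0 I)⁻¹
    exact ⟨J, Ideal.isCoprime_iff_sup_eq.2 (sup_top_eq _), hJ⟩
  obtain ⟨x, hx⟩ := IsDedekindDomain.exists_sup_span_eq
    (I := (I : Ideal (𝓞 K)) * m) (J := (I : Ideal (𝓞 K))) Ideal.mul_le_left (mul_ne_zero hI hm)
  have hx0 : x ≠ 0 := by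
    rintro rfl
    rw [Ideal.span_singleton_eq_bot.2 rfl, sup_bot_eq] at hx
    exact hmt (Ideal.one_eq_top (R := 𝓞 K) ▸ mul_left_cancel₀ hI (hx.trans (mul_one _).symm))
  obtain ⟨J, hJ⟩ := Ideal.dvd_iff_le.2 (le_sup_right.trans hx.le)
  have hJ0 : J ≠ ⊥ := by
    rintro rfl
    exact hx0 (Ideal.span_singleton_eq_bot.1 (hJ.trans (Ideal.mul_bot _)))
  refine ⟨⟨J, mem_nonZeroDivisors_of_ne_zero hJ0⟩, Ideal.isCoprime_iff_sup_eq.2 ?_, ?_⟩
  · rw [hJ, ← Ideal.mul_sup] at hx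
    rw [sup_comm, ← Ideal.one_eq_top]
    exact mul_left_cancel₀ hI (hx.trans (mul_one _).symm)
  · rw [ClassGroup.mk0_eq_mk0_inv_iff]
    exact ⟨x, hx0, (mul_comm _ _).trans hJ.symm⟩

/-- Nonzero ideals in a class divisible by `B`. -/
abbrev ClassMultiples (B : Ideal (𝓞 K)) (C : ClassGroup (𝓞 K)) : Type _ :=
  {I : Ideal (𝓞 K) // I ≠ ⊥ ∧ cls I = C ∧ I ≤ B}

section Fiber

variable (B J BJ : (Ideal (𝓞 K))⁰) (hBJ : (BJ : Ideal (𝓞 K)) = B * J) {C : ClassGroup (𝓞 K)}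
  (hJ : ClassGroup.mk0 J = C⁻¹)

include hBJ hJ in
/-- Multiplication by a representative of the inverse class. -/
def fiberEquiv : ClassMultiples (B : Ideal (𝓞 K)) C ≃ PrincipalMultiples BJ :=
  Equiv.ofBijective (fun I => ⟨(I : Ideal (𝓞 K)) * J,
      mul_ne_zero I.2.1 (nonZeroDivisors.coe_ne_zero J), by
        obtain ⟨I, hI0, hC, -⟩ := I
        have h : ClassGroup.mk0 (⟨I, mem_nonZeroDivisors_of_ne_zero hI0⟩ * J) = 1 := by
          rw [map_mul, ← cls_mk0, hJ]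
          show cls I * C⁻¹ = 1
          rw [hC, mul_inv_cancel]
        exact (ClassGroup.mk0_eq_one_iff _).1 h,
      hBJ ▸ Ideal.mul_mono_left I.2.2.2⟩) <| by
    constructor
    · intro I I' h
      exact Subtype.ext (mul_right_cancel₀ (nonZeroDivisors.coe_ne_zero J) (congrArg Subtype.val h))
    · rintro ⟨P, hP0, hPpr, hPle⟩
      obtain ⟨Q, rfl⟩ := Ideal.dvd_iff_le.2 (hPle.trans (hBJ.le.trans Ideal.mul_le_right))
      have hQ0 : Q ≠ ⊥ := fun h => hP0 (by rw [h, Ideal.mul_bot])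
      refine ⟨⟨Q, hQ0, ?_, ?_⟩, Subtype.ext (mul_comm _ _)⟩
      · have h : ClassGroup.mk0 (J * ⟨Q, mem_nonZeroDivisors_of_ne_zero hQ0⟩) = 1 :=
          (ClassGroup.mk0_eq_one_iff _).2 hPpr
        rw [map_mul, hJ, ← cls_mk0, inv_mul_eq_one] at h
        exact h.symm
      · rw [hBJ, mul_comm (J : Ideal (𝓞 K))] at hPle
        exact Ideal.dvd_iff_le.1
          ((mul_dvd_mul_iff_right (nonZeroDivisors.coe_ne_zero J)).1 (Ideal.dvd_iff_le.2 hPle))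

theorem coe_fiberEquiv (I : ClassMultiples (B : Ideal (𝓞 K)) C) :
    ((fiberEquiv B J BJ hBJ hJ I : PrincipalMultiples BJ) : Ideal (𝓞 K)) = I * J := rfl

end Fiber

theorem summable_nterm_principal (J : (Ideal (𝓞 K))⁰) {s : ℝ} (hs : 1 < s) :
    Summable fun I : PrincipalMultiples J => ‖(nterm s (I : Ideal (𝓞 K)) : ℂ)‖ := by
  refine summable_of_summable_unitWt (F := fun I => (nterm s I : ℂ)) ?_
  have h := (summable_wTerm J hs).comp_injective
    (i := fun a : NonzeroMem J => (⟨(a : 𝓞 K), a.2.2⟩ : (J : Ideal (𝓞 K))))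
    (fun a b h => Subtype.ext (congrArg Subtype.val h :))
  refine h.congr fun a => ?_
  rw [Function.comp_apply, wTerm_of_ne_zero s a.2.1, Complex.norm_real, Real.norm_eq_abs,
    abs_of_nonneg (nterm_nonneg _ _)]
  rfl

theorem summable_classMultiples (B : (Ideal (𝓞 K))⁰) (C : ClassGroup (𝓞 K)) {s : ℝ} (hs : 1 < s) :
    Summable fun I : ClassMultiples (B : Ideal (𝓞 K)) C => nterm s (I : Ideal (𝓞 K)) := by
  obtain ⟨J, -, hJ⟩ := exists_rep C (top_ne_bot (α := Ideal (𝓞 K)))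
  have h := (fiberEquiv B J (B * J) (Submonoid.coe_mul _ _ _) hJ).summable_iff.2
    (summable_nterm_principal (B * J) hs)
  have hJpos := nterm_pos s (nonZeroDivisors.coe_ne_zero J)
  refine (h.mul_right (nterm s (J : Ideal (𝓞 K)))⁻¹).congr fun I => ?_
  rw [Function.comp_apply, coe_fiberEquiv, Complex.norm_real, Real.norm_eq_abs,
    abs_of_nonneg (nterm_nonneg _ _), nterm_mul, mul_assoc, mul_inv_cancel₀ hJpos.ne', mul_one]

theorem summable_nterm {s : ℝ} (hs : 1 < s) :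
    Summable fun I : Ideal (𝓞 K) => nterm s I := by
  have hs0 : s ≠ 0 := by linarith
  have h : ∀ C : ClassGroup (𝓞 K), Summable ({I : Ideal (𝓞 K) | I ≠ ⊥ ∧ cls I = C ∧
      I ≤ ((1 : (Ideal (𝓞 K))⁰) : Ideal (𝓞 K))}.indicator fun I => nterm s I) :=
    fun C => summable_subtype_iff_indicator.1 (summable_classMultiples 1 C hs)
  refine (summable_sum fun C (_ : C ∈ Finset.univ) => h C).congr fun I => ?_
  rcases eq_or_ne I ⊥ with rfl | hI
  · rw [nterm_bot hs0]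
    exact Finset.sum_eq_zero fun C _ => Set.indicator_of_notMem (fun h => h.1 rfl) _
  · rw [Finset.sum_eq_single (cls I) (fun C _ hC => Set.indicator_of_notMem
      (fun h => hC h.2.1.symm) _) (fun h => absurd (Finset.mem_univ _) h)]
    refine Set.indicator_of_mem ?_ _
    refine ⟨hI, rfl, ?_⟩
    rw [OneMemClass.coe_one, Ideal.one_eq_top]
    exact le_top

namespace RayChar

variable {m : Ideal (𝓞 K)} (ψ : RayChar m)

theorem summable_term {s : ℝ} (hs : 1 < s) : Summable fun I => ψ.term s I :=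
  Summable.of_norm_bounded (summable_nterm hs) fun I => ψ.norm_term_le s I

/-- The L-series. -/
def lseries (s : ℝ) : ℂ := ∑' I : Ideal (𝓞 K), ψ.term s I

/-- The part of the L-series of a class divisible by `B`. -/
def classSum (B : Ideal (𝓞 K)) (C : ClassGroup (𝓞 K)) (s : ℝ) : ℂ :=
  ∑' I : ClassMultiples B C, ψ.term s (I : Ideal (𝓞 K))

theorem sum_classSum (B : (Ideal (𝓞 K))⁰) {s : ℝ} (hs : 1 < s) :
    ∑ C, ψ.classSum (B : Ideal (𝓞 K)) C s = ψ.term s (B : Ideal (𝓞 K)) * ψ.lseries s := by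
  have hsum := ψ.summable_term hs
  have h : ∀ C, ψ.classSum (B : Ideal (𝓞 K)) C s
      = ∑' I, {I : Ideal (𝓞 K) | I ≠ ⊥ ∧ cls I = C ∧ I ≤ (B : Ideal (𝓞 K))}.indicator
          (fun I => ψ.term s I) I :=
    fun C => tsum_subtype _ fun I => ψ.term s I
  rw [Finset.sum_congr rfl fun C _ => h C,
    ← Summable.tsum_finsetSum (fun C _ => hsum.indicator _)]
  have hB : (B : Ideal (𝓞 K)) ≠ ⊥ := nonZeroDivisors.coe_ne_zero B
  have hinj : Function.Injective fun I : Ideal (𝓞 K) => (B : Ideal (𝓞 K)) * I :=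
    fun _ _ h => mul_left_cancel₀ hB h
  rw [lseries, ← tsum_mul_left, ← hinj.tsum_eq]
  · refine tsum_congr fun I => ?_
    rcases eq_or_ne I ⊥ with rfl | hI
    · rw [ψ.term_bot, mul_zero, Ideal.mul_bot]
      exact Finset.sum_eq_zero fun C _ => Set.indicator_of_notMem (fun h => h.1 rfl) _
    · rw [Finset.sum_eq_single (cls ((B : Ideal (𝓞 K)) * I))
        (fun C _ hC => Set.indicator_of_notMem (fun h => hC h.2.1.symm) _)
        (fun h => absurd (Finset.mem_univ _) h), Set.indicator_of_mem, ψ.term_mul]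
      exact ⟨mul_ne_zero hB hI, rfl, Ideal.mul_le_left⟩
  · intro I hI
    rw [Function.mem_support] at hI
    obtain ⟨C, -, hC⟩ := Finset.exists_ne_zero_of_sum_ne_zero hI
    obtain ⟨Q, hQ⟩ := Ideal.dvd_iff_le.2 (Set.mem_of_indicator_ne_zero hC).2.2
    exact ⟨Q, hQ.symm⟩

include ψ in
theorem exists_lift (hm : m ≠ ⊥) : ∃ f : 𝓞 K ⧸ m → ℂ, ∀ a : 𝓞 K, a ≠ 0 →
    f (Ideal.Quotient.mk m a) = ψ.toFun (Ideal.span {a}) := by
  have hex : ∀ r : 𝓞 K ⧸ m, ∃ a : 𝓞 K, a ≠ 0 ∧ Ideal.Quotient.mk m a = r := by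
    intro r
    obtain ⟨a, rfl⟩ := Ideal.Quotient.mk_surjective r
    by_cases ha : a = 0
    · obtain ⟨y, hy, hy0⟩ := Submodule.exists_mem_ne_zero_of_ne_bot hm
      exact ⟨y, hy0, by rw [ha, map_zero, Ideal.Quotient.eq_zero_iff_mem]; exact hy⟩
    · exact ⟨a, ha, rfl⟩
  choose rep hrep using hex
  refine ⟨fun r => ψ.toFun (Ideal.span {rep r}), fun a ha => ?_⟩
  obtain ⟨h0, heq⟩ := hrep (Ideal.Quotient.mk m a)
  have hd := Ideal.Quotient.eq.1 heq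
  set b := rep (Ideal.Quotient.mk m a)
  show ψ.toFun (Ideal.span {b}) = _
  by_cases hcop : IsCoprime (Ideal.span {a}) m
  · obtain ⟨c, hc0, hc⟩ : ∃ c : 𝓞 K, c ≠ 0 ∧ a * c - 1 ∈ m := by
      obtain ⟨u, hu, v, hv, huv⟩ := Ideal.isCoprime_iff_exists.1 hcop
      obtain ⟨c, rfl⟩ := Ideal.mem_span_singleton'.1 hu
      by_cases hc : c = 0
      · refine ⟨1, one_ne_zero, ?_⟩
        have h1 : (1 : 𝓞 K) ∈ m := by
          rw [hc, zero_mul, zero_add] at huv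
          exact huv ▸ hv
        rw [(Ideal.eq_top_iff_one m).2 h1]
        exact Submodule.mem_top
      · refine ⟨c, hc, ?_⟩
        rw [show a * c - 1 = -v by linear_combination huv]
        exact neg_mem hv
    have h1 : ∀ x : 𝓞 K, x ≠ 0 → x * c - 1 ∈ m →
        ψ.toFun (Ideal.span {x}) * ψ.toFun (Ideal.span {c}) = 1 := fun x hx hxc => by
      rw [← map_mul, Ideal.span_singleton_mul_span_singleton]
      exact ψ.ray _ (mul_ne_zero hx hc0) hxc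
    have hb : b * c - 1 ∈ m := by
      rw [show b * c - 1 = (b - a) * c + (a * c - 1) by ring]
      exact add_mem (Ideal.mul_mem_right _ _ hd) hc
    have h2 := h1 a ha hc
    exact mul_right_cancel₀ (right_ne_zero_of_mul_eq_one h2) ((h1 b h0 hb).trans h2.symm)
  · rw [ψ.eq_zero _ hcop, ψ.eq_zero]
    intro hb
    refine hcop (Ideal.isCoprime_iff_exists.2 ?_)
    obtain ⟨u, hu, v, hv, huv⟩ := Ideal.isCoprime_iff_exists.1 hb
    obtain ⟨w, rfl⟩ := Ideal.mem_span_singleton'.1 hu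
    refine ⟨w * a, Ideal.mul_mem_left _ _ (Ideal.mem_span_singleton_self _),
      w * (b - a) + v, add_mem (Ideal.mul_mem_left _ _ hd) hv, ?_⟩
    linear_combination huv

/-- A class sum is a periodic sum. -/
theorem classSum_eq (B J BJ : (Ideal (𝓞 K))⁰) (hBJ : (BJ : Ideal (𝓞 K)) = B * J)
    {C : ClassGroup (𝓞 K)} (hJ : ClassGroup.mk0 J = C⁻¹)
    {f : 𝓞 K ⧸ m → ℂ}
    (hf : ∀ a : 𝓞 K, a ≠ 0 → f (Ideal.Quotient.mk m a) = ψ.toFun (Ideal.span {a}))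
    {s : ℝ} (hs : 1 < s) :
    periodicSum BJ m f s = (torsionOrder K : ℂ) * (ψ.classSum (B : Ideal (𝓞 K)) C s
      * ψ.term s (J : Ideal (𝓞 K))) := by
  have hF : Summable fun I : PrincipalMultiples BJ => ‖ψ.term s (I : Ideal (𝓞 K))‖ :=
    Summable.of_nonneg_of_le (fun _ => norm_nonneg _) (fun I => ψ.norm_term_le s _)
      ((summable_nterm hs).comp_injective (i := fun I : PrincipalMultiples BJ => (I : Ideal (𝓞 K)))
        Subtype.val_injective)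
  have h1 : periodicSum BJ m f s
      = ∑' a : NonzeroMem BJ, (unitWt (a : 𝓞 K) : ℂ) * ψ.term s (Ideal.span {(a : 𝓞 K)}) := by
    have hinj : Function.Injective
        fun a : NonzeroMem BJ => (⟨(a : 𝓞 K), a.2.2⟩ : (BJ : Ideal (𝓞 K))) :=
      fun a b h => Subtype.ext (congrArg Subtype.val h :)
    rw [periodicSum, ← hinj.tsum_eq]
    · refine tsum_congr fun a => ?_
      dsimp only
      rw [wTerm_of_ne_zero s a.2.1, hf _ a.2.1, term, nterm, Complex.ofReal_mul]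
      ring
    · rintro ⟨a, ha⟩ h
      rw [Function.mem_support] at h
      refine ⟨⟨a, fun h0 => h ?_, ha⟩, rfl⟩
      simp [h0, wTerm_zero]
  rw [h1, (hasSum_unitWt_smul hF).tsum_eq, classSum, ← tsum_mul_right,
    ← (fiberEquiv B J BJ hBJ hJ).tsum_eq fun I => ψ.term s (I : Ideal (𝓞 K))]
  exact congrArg _ (tsum_congr fun I => by rw [coe_fiberEquiv, ψ.term_mul])

/-- The difference bound for one class. -/
theorem exists_bound_classSum (hm : m ≠ ⊥) (B : (Ideal (𝓞 K))⁰)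
    (hB : IsCoprime (B : Ideal (𝓞 K)) m) (C : ClassGroup (𝓞 K)) :
    ∃ D : ℝ, ∀ s : ℝ, 1 < s → s ≤ 2 → ‖ψ.classSum (B : Ideal (𝓞 K)) C s
      - (Ideal.absNorm (B : Ideal (𝓞 K)) : ℂ)⁻¹ * ψ.classSum ⊤ C s‖ ≤ D := by
  obtain ⟨J, hJm, hJ⟩ := exists_rep C hm
  obtain ⟨f, hf⟩ := ψ.exists_lift hm
  let m₀ : (Ideal (𝓞 K))⁰ := ⟨m, mem_nonZeroDivisors_of_ne_zero hm⟩
  obtain ⟨M, hMm, hMBJ⟩ : ∃ M : (Ideal (𝓞 K))⁰, (M : Ideal (𝓞 K)) ≤ m ∧
      (M : Ideal (𝓞 K)) ≤ ((B * J : (Ideal (𝓞 K))⁰) : Ideal (𝓞 K)) :=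
    ⟨B * J * m₀, Ideal.mul_le_right, Ideal.mul_le_left⟩
  have hMJ : (M : Ideal (𝓞 K)) ≤ (J : Ideal (𝓞 K)) := hMBJ.trans Ideal.mul_le_right
  have := Ideal.finiteQuotientOfFreeOfNeBot m hm
  have := Fintype.ofFinite (𝓞 K ⧸ m)
  obtain ⟨D₁, hD₁⟩ := exists_bound_periodicSum (B * J) M hMBJ hMm (hB.mul_left hJm) f
  obtain ⟨D₂, hD₂⟩ := exists_bound_periodicSum J M hMJ hMm hJm f
  have hN : (0 : ℝ) < Ideal.absNorm (B : Ideal (𝓞 K)) := absNorm_pos (nonZeroDivisors.coe_ne_zero B)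
  have hT : (0 : ℝ) < torsionOrder K * nterm 2 (J : Ideal (𝓞 K)) :=
    mul_pos (Nat.cast_pos.2 (torsionOrder_pos K)) (nterm_pos 2 (nonZeroDivisors.coe_ne_zero J))
  refine ⟨(D₁ + (Ideal.absNorm (B : Ideal (𝓞 K)) : ℝ)⁻¹ * D₂)
    / (torsionOrder K * nterm 2 (J : Ideal (𝓞 K))), fun s h1 h2 => ?_⟩
  have hP₁ := hD₁ s h1 h2
  have hP₂ := hD₂ s h1 h2
  rw [ψ.classSum_eq B J (B * J) rfl hJ hf h1] at hP₁
  rw [ψ.classSum_eq 1 J J (one_mul _).symm hJ hf h1] at hP₂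
  rw [OneMemClass.coe_one, Ideal.one_eq_top] at hP₂
  rw [Submonoid.coe_mul, map_mul, Nat.cast_mul] at hP₁
  set NB : ℕ := Ideal.absNorm (B : Ideal (𝓞 K))
  set x := ψ.classSum (B : Ideal (𝓞 K)) C s - (NB : ℂ)⁻¹ * ψ.classSum ⊤ C s with hx
  rw [le_div_iff₀ hT]
  set cs : ℂ := (cosetSum M s 0 : ℂ)
  set Sf : ℂ := ∑ r, f r
  set NM : ℂ := (Ideal.absNorm (M : Ideal (𝓞 K)) : ℂ)
  set NJ : ℂ := (Ideal.absNorm (J : Ideal (𝓞 K)) : ℂ)
  set q : ℂ := (Fintype.card (𝓞 K ⧸ m) : ℂ)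
  set t : ℂ := ψ.term s (J : Ideal (𝓞 K)) with ht
  set a : ℂ := (torsionOrder K : ℂ) * (ψ.classSum (B : Ideal (𝓞 K)) C s * t)
    - NM / ((NB : ℂ) * NJ * q) * Sf * cs with ha
  set b : ℂ := (torsionOrder K : ℂ) * (ψ.classSum ⊤ C s * t)
    - NM / (NJ * q) * Sf * cs with hb
  have key : (torsionOrder K : ℂ) * t * x = a - (NB : ℂ)⁻¹ * b := by
    simp only [hx, ha, hb, div_eq_mul_inv, mul_inv]
    ring
  have hle : nterm 2 (J : Ideal (𝓞 K)) ≤ ‖t‖ := by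
    rw [ht, term, norm_mul, ψ.norm_eq _ (nonZeroDivisors.coe_ne_zero J) hJm, one_mul,
      Complex.norm_real, Real.norm_eq_abs, abs_of_nonneg (nterm_nonneg _ _)]
    exact Real.rpow_le_rpow_of_exponent_le
      (Nat.one_le_cast.2 (Nat.one_le_iff_ne_zero.2 (Ideal.absNorm_ne_zero_of_nonZeroDivisors J)))
      (by linarith)
  calc ‖x‖ * (torsionOrder K * nterm 2 (J : Ideal (𝓞 K)))
      ≤ ‖x‖ * (torsionOrder K * ‖t‖) := by gcongr
    _ = ‖(torsionOrder K : ℂ) * t * x‖ := by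
      rw [norm_mul, norm_mul, Complex.norm_natCast]
      ring
    _ = ‖a - (NB : ℂ)⁻¹ * b‖ := by rw [key]
    _ ≤ ‖a‖ + (NB : ℝ)⁻¹ * ‖b‖ := by
      refine (norm_sub_le _ _).trans ?_
      rw [norm_mul, norm_inv, Complex.norm_natCast]
    _ ≤ _ := add_le_add hP₁ (mul_le_mul_of_nonneg_left hP₂ (inv_nonneg.2 hN.le))

/-- A nontrivial character has a bounded L-series near `1`. -/
theorem exists_bound_lseries (hm : m ≠ ⊥)
    (hψ : ∃ I, I ≠ ⊥ ∧ IsCoprime I m ∧ ψ.toFun I ≠ 1) :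
    ∃ D : ℝ, ∀ s : ℝ, 1 < s → s ≤ 2 → ‖ψ.lseries s‖ ≤ D := by
  obtain ⟨B₀, hB0, hBm, hB1⟩ := hψ
  let B : (Ideal (𝓞 K))⁰ := ⟨B₀, mem_nonZeroDivisors_of_ne_zero hB0⟩
  choose D hD using fun C => ψ.exists_bound_classSum hm B hBm C
  set z := ψ.toFun B₀ with hz
  have hzn : ‖z‖ = 1 := ψ.norm_eq _ hB0 hBm
  have hN : (0 : ℝ) < Ideal.absNorm B₀ := absNorm_pos hB0
  have hd : 0 < ‖z - 1‖ := norm_pos_iff.2 (sub_ne_zero.2 hB1)
  refine ⟨2 * Ideal.absNorm B₀ * (∑ C, D C) / ‖z - 1‖, fun s h1 h2 => ?_⟩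
  have h := (norm_sum_le _ _).trans (Finset.sum_le_sum (s := Finset.univ) fun C _ => hD C s h1 h2)
  rw [Finset.sum_sub_distrib, ← Finset.mul_sum, ψ.sum_classSum B h1] at h
  have htop := ψ.sum_classSum 1 h1
  rw [OneMemClass.coe_one] at htop
  rw [← Ideal.one_eq_top, htop, show ψ.term s 1 = 1 by
    rw [term, map_one, nterm_one, Complex.ofReal_one, one_mul], one_mul, ← sub_mul, norm_mul] at h
  set NB : ℝ := (Ideal.absNorm B₀ : ℝ)
  set t : ℝ := NB * nterm s B₀ with ht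
  have hkey : ‖z - 1‖ ≤ 2 * ‖z * t - 1‖ := by
    have h3 : |t - 1| ≤ ‖z * t - 1‖ := by
      have := abs_norm_sub_norm_le (z * t) 1
      rwa [norm_mul, hzn, one_mul, norm_one, Complex.norm_real, Real.norm_eq_abs,
        abs_of_nonneg (mul_nonneg hN.le (nterm_nonneg _ _))] at this
    calc ‖z - 1‖ = ‖(z * t - 1) + z * ((1 - t : ℝ) : ℂ)‖ := by push_cast; congr 1; ring
      _ ≤ ‖z * t - 1‖ + |t - 1| := by
        refine (norm_add_le _ _).trans (add_le_add le_rfl (le_of_eq ?_))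
        rw [norm_mul, hzn, one_mul, Complex.norm_real, Real.norm_eq_abs, abs_sub_comm]
      _ ≤ 2 * ‖z * t - 1‖ := by linarith
  have hfac : ‖ψ.term s (B : Ideal (𝓞 K)) - (Ideal.absNorm (B : Ideal (𝓞 K)) : ℂ)⁻¹‖
      = NB⁻¹ * ‖z * t - 1‖ := by
    have hNc : (Ideal.absNorm B₀ : ℂ) ≠ 0 :=
      Nat.cast_ne_zero.2 (mt Ideal.absNorm_eq_zero_iff.1 hB0)
    have : ψ.term s (B : Ideal (𝓞 K)) - (Ideal.absNorm (B : Ideal (𝓞 K)) : ℂ)⁻¹
        = ((NB⁻¹ : ℝ) : ℂ) * (z * t - 1) := by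
      show ψ.term s B₀ - (Ideal.absNorm B₀ : ℂ)⁻¹ = _
      simp only [ht, hz, term, NB]
      push_cast
      field_simp
    rw [this, norm_mul, Complex.norm_real, Real.norm_eq_abs, abs_of_nonneg (inv_nonneg.2 hN.le)]
  rw [hfac] at h
  rw [le_div_iff₀ hd]
  calc ‖ψ.lseries s‖ * ‖z - 1‖ ≤ ‖ψ.lseries s‖ * (2 * ‖z * t - 1‖) := by gcongr
    _ = 2 * NB * (NB⁻¹ * ‖z * t - 1‖ * ‖ψ.lseries s‖) := by field_simp
    _ ≤ 2 * NB * ∑ C, D C := mul_le_mul_of_nonneg_left h (by positivity)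

end RayChar

end FLTAgent.TW.RayL
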