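import Fermat.Agent.TW.RayL.Bound
import Mathlib.NumberTheory.NumberField.DedekindZeta

/-!
# Finite Euler products and the pole of the zeta function
-/

set_option autoImplicit false

noncomputable section

open Module NumberField IsDedekindDomain Filter Topology

attribute [local instance] Classical.propDecidable

namespace FLTAgent.TW.RayL

variable {K : Type*} [Field K] [NumberField K]

/-- Ideals divisible by none of the primes in `T`. -/
def primeTo (T : Finset (HeightOneSpectrum (𝓞 K))) : Set (Ideal (𝓞 K)) :=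
  {I | ∀ P ∈ T, ¬ I ≤ P.asIdeal}

namespace RayChar

variable {m : Ideal (𝓞 K)} (ψ : RayChar m)

theorem tsum_primeTo (T : Finset (HeightOneSpectrum (𝓞 K))) {s : ℝ} (hs : 1 < s) :
    ∑' I, (primeTo T).indicator (fun I => ψ.term s I) I
      = ψ.lseries s * ∏ P ∈ T, (1 - ψ.term s P.asIdeal) := by
  induction T using Finset.induction_on with
  | empty => simp [primeTo, lseries]
  | insert P T hP ih =>
    set g : Ideal (𝓞 K) → ℂ := (primeTo T).indicator fun I => ψ.term s I with hg
    have hgs : Summable g := (ψ.summable_term hs).indicator _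
    have hsplit : (primeTo (insert P T)).indicator (fun I => ψ.term s I)
        = fun I => g I - {I : Ideal (𝓞 K) | I ≤ P.asIdeal}.indicator g I := by
      funext I
      by_cases h1 : I ∈ primeTo T <;> by_cases h2 : I ≤ P.asIdeal <;>
        simp_all [primeTo, Set.indicator]
    have hinj : Function.Injective fun J : Ideal (𝓞 K) => P.asIdeal * J :=
      fun _ _ h => mul_left_cancel₀ P.ne_bot h
    have hmul : ∑' I, {I : Ideal (𝓞 K) | I ≤ P.asIdeal}.indicator g I
        = ψ.term s P.asIdeal * ∑' I, g I := by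
      rw [← hinj.tsum_eq, ← tsum_mul_left]
      · refine tsum_congr fun J => ?_
        rw [Set.indicator_of_mem (show P.asIdeal * J ∈ {I : Ideal (𝓞 K) | I ≤ P.asIdeal} from
          Ideal.mul_le_left)]
        have hiff : P.asIdeal * J ∈ primeTo T ↔ J ∈ primeTo T := by
          refine forall₂_congr fun Q hQ => not_congr ?_
          refine ⟨fun h => ?_, fun h => Ideal.mul_le_right.trans h⟩
          refine (Q.isPrime.mul_le.1 h).resolve_left fun h' => hP ?_
          rwa [HeightOneSpectrum.ext (P.isPrime.isMaximal P.ne_bot |>.eq_of_le Q.isPrime.ne_top h')]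
        simp [hg, Set.indicator, hiff, ψ.term_mul]
      · intro I hI
        obtain ⟨J, hJ⟩ := Ideal.dvd_iff_le.2 (Set.mem_of_indicator_ne_zero hI)
        exact ⟨J, hJ.symm⟩
    rw [hsplit, hgs.tsum_sub (hgs.indicator _), hmul, Finset.prod_insert hP, hg, ih]
    ring

/-- Finite Euler products approximate the inverse of the L-series. -/
theorem exists_euler {s : ℝ} (hs : 1 < s) :
    ∃ T₀ : Finset (HeightOneSpectrum (𝓞 K)), ∀ T, T₀ ⊆ T →
      ‖ψ.lseries s * ∏ P ∈ T, (1 - ψ.term s P.asIdeal) - 1‖ ≤ 1 / 2 := by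
  have hn := summable_nterm (K := K) hs
  obtain ⟨S, hS⟩ := summable_iff_vanishing_norm.1 hn (1 / 2) one_half_pos
  have hex : ∀ I : Ideal (𝓞 K), ∃ T₁ : Finset (HeightOneSpectrum (𝓞 K)),
      I ∈ primeTo T₁ → I = 1 := by
    intro I
    by_cases hI : I = 1
    · exact ⟨∅, fun _ => hI⟩
    obtain ⟨Q, hQ, hIQ⟩ := Ideal.exists_le_maximal I (by rwa [← Ideal.one_eq_top])
    refine ⟨{⟨Q, hQ.isPrime, fun h => ?_⟩}, fun h => absurd hIQ (h _ (Finset.mem_singleton_self _))⟩
    exact Ring.ne_bot_of_isMaximal_of_not_isField hQ (RingOfIntegers.not_isField K) h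
  choose T₁ hT₁ using hex
  refine ⟨S.biUnion T₁, fun T hT => ?_⟩
  have hone : (1 : Ideal (𝓞 K)) ∈ primeTo T := fun P _ h => P.isPrime.ne_top
    (eq_top_iff.2 (Ideal.one_eq_top (R := 𝓞 K) ▸ h))
  set g : Ideal (𝓞 K) → ℂ := (primeTo T).indicator fun I => ψ.term s I with hg
  have hgs : Summable g := (ψ.summable_term hs).indicator _
  rw [← ψ.tsum_primeTo T hs, hgs.tsum_eq_add_tsum_ite 1, show g 1 = 1 by
    rw [hg, Set.indicator_of_mem hone, term, map_one, nterm_one, Complex.ofReal_one, one_mul],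
    add_sub_cancel_left]
  have hb : ∀ I, ‖if I = 1 then 0 else g I‖
      ≤ ((↑S : Set (Ideal (𝓞 K)))ᶜ).indicator (fun I => nterm s I) I := by
    intro I
    split_ifs with h1
    · rw [norm_zero]
      exact Set.indicator_nonneg (fun _ _ => nterm_nonneg _ _) _
    · by_cases hI : I ∈ primeTo T
      · rw [hg, Set.indicator_of_mem hI, Set.indicator_of_mem]
        · exact ψ.norm_term_le s I
        · exact fun hIS => h1 (hT₁ I fun P hP => hI P (hT (Finset.mem_biUnion.2 ⟨I, hIS, hP⟩)))
      · rw [hg, Set.indicator_of_notMem hI, norm_zero]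
        exact Set.indicator_nonneg (fun _ _ => nterm_nonneg _ _) _
  refine (tsum_of_norm_bounded (hn.indicator _).hasSum hb).trans ?_
  refine Real.tsum_le_of_sum_le (fun I => Set.indicator_nonneg (fun _ _ => nterm_nonneg _ _) _)
    fun u => ?_
  rw [Finset.sum_indicator_eq_sum_filter]
  refine le_of_lt ((le_abs_self _).trans_lt (hS _ (Finset.disjoint_left.2 fun I hI hIS => ?_)))
  exact (Finset.mem_filter.1 hI).2 hIS

theorem half_le_norm {s : ℝ} {T : Finset (HeightOneSpectrum (𝓞 K))}
    (h : ‖ψ.lseries s * ∏ P ∈ T, (1 - ψ.term s P.asIdeal) - 1‖ ≤ 1 / 2) :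
    1 / 2 ≤ ‖ψ.lseries s‖ * ‖∏ P ∈ T, (1 - ψ.term s P.asIdeal)‖ := by
  rw [← norm_mul]
  have := norm_sub_norm_le (1 : ℂ) (ψ.lseries s * ∏ P ∈ T, (1 - ψ.term s P.asIdeal))
  rw [norm_one, norm_sub_rev] at this
  linarith

theorem norm_lseries_le {s : ℝ} (hs : 1 < s) :
    ‖ψ.lseries s‖ ≤ ∑' I : Ideal (𝓞 K), nterm s I :=
  tsum_of_norm_bounded (summable_nterm hs).hasSum fun I => ψ.norm_term_le s I

end RayChar

variable (K) in
/-- The trivial character. -/
def trivChar : RayChar (⊤ : Ideal (𝓞 K)) where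
  toFun :=
    { toFun := fun I => if I = ⊥ then 0 else 1
      map_zero' := if_pos rfl
      map_one' := if_neg (one_ne_zero (α := Ideal (𝓞 K)))
      map_mul' := fun I J => by
        by_cases hI : I = ⊥ <;> by_cases hJ : J = ⊥ <;> simp [hI, hJ] }
  norm_eq I hI _ := by simp [hI]
  eq_zero I h := absurd (Ideal.isCoprime_iff_sup_eq.2 (sup_top_eq I)) h
  ray x hx _ := by simp [hx]

variable (K) in
/-- The zeta function as a sum over ideals. -/
def zetaSum (s : ℝ) : ℝ := ∑' I : Ideal (𝓞 K), nterm s I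

theorem trivChar_term {s : ℝ} (hs : s ≠ 0) (I : Ideal (𝓞 K)) :
    (trivChar K).term s I = (nterm s I : ℂ) := by
  rcases eq_or_ne I ⊥ with rfl | hI
  · rw [RayChar.term_bot, nterm_bot hs, Complex.ofReal_zero]
  · simp [RayChar.term, trivChar, hI]

theorem lseries_trivChar {s : ℝ} (hs : s ≠ 0) :
    (trivChar K).lseries s = (zetaSum K s : ℂ) := by
  rw [zetaSum, Complex.ofReal_tsum]
  exact tsum_congr fun I => trivChar_term hs I

theorem one_le_zetaSum {s : ℝ} (hs : 1 < s) : 1 ≤ zetaSum K s := by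
  rw [← nterm_one (K := K) s]
  exact (summable_nterm hs).le_tsum 1 fun I _ => nterm_nonneg s I

theorem zetaSum_eq {s : ℝ} (hs : 1 < s) : (zetaSum K s : ℂ) = dedekindZeta K (s : ℂ) := by
  have hsum : Summable fun I : Ideal (𝓞 K) => nterm s I := summable_nterm hs
  have h1 := ((Equiv.sigmaFiberEquiv fun I : Ideal (𝓞 K) => Ideal.absNorm I).summable_iff).2 hsum
  simp only [Function.comp_def] at h1
  rw [zetaSum, ← (Equiv.sigmaFiberEquiv fun I : Ideal (𝓞 K) => Ideal.absNorm I).tsum_eq,
    h1.tsum_sigma, Complex.ofReal_tsum, dedekindZeta, LSeries]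
  refine tsum_congr fun n => ?_
  have hterm : ∀ I : {I : Ideal (𝓞 K) // Ideal.absNorm I = n},
      nterm s ((Equiv.sigmaFiberEquiv fun I : Ideal (𝓞 K) => Ideal.absNorm I) ⟨n, I⟩)
        = (n : ℝ) ^ (-s) := fun I => by
    show nterm s (I : Ideal (𝓞 K)) = _
    rw [nterm, I.2]
  rw [tsum_congr hterm, tsum_const, nsmul_eq_mul, Complex.ofReal_mul, Complex.ofReal_natCast]
  rcases eq_or_ne n 0 with rfl | hn
  · rw [LSeries.term_zero, Nat.cast_zero, Real.zero_rpow (by linarith), Complex.ofReal_zero,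
      mul_zero]
  · rw [LSeries.term_of_ne_zero hn, Complex.ofReal_cpow (Nat.cast_nonneg _), Complex.ofReal_neg,
      Complex.ofReal_natCast, Complex.cpow_neg, div_eq_mul_inv]

/-- `log ζ(s) = log (1/(s-1)) + O(1)`. -/
theorem exists_log_zetaSum :
    ∃ D : ℝ, ∀ᶠ s in 𝓝[>] (1 : ℝ), |Real.log (zetaSum K s) - Real.log (1 / (s - 1))| ≤ D := by
  have hc : 0 < dedekindZeta_residue K := dedekindZeta_residue_pos K
  have ht : Tendsto (fun s : ℝ => (s - 1) * zetaSum K s) (𝓝[>] 1)
      (𝓝 (dedekindZeta_residue K)) := by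
    have h := (Complex.continuous_re.tendsto _).comp (tendsto_sub_one_mul_dedekindZeta_nhdsGT K)
    rw [Complex.ofReal_re] at h
    refine h.congr' ?_
    filter_upwards [self_mem_nhdsWithin] with s hs
    rw [Function.comp_apply, ← zetaSum_eq hs, ← Complex.ofReal_one, ← Complex.ofReal_sub,
      ← Complex.ofReal_mul, Complex.ofReal_re]
  refine ⟨max |Real.log (dedekindZeta_residue K / 2)| |Real.log (2 * dedekindZeta_residue K)|, ?_⟩
  filter_upwards [self_mem_nhdsWithin, ht.eventually_const_lt (half_lt_self hc),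
    ht.eventually_lt_const (show dedekindZeta_residue K < 2 * dedekindZeta_residue K by linarith)]
    with s hs hlo hhi
  have hs' : 0 < s - 1 := sub_pos.2 hs
  have hz : 0 < zetaSum K s := zero_lt_one.trans_le (one_le_zetaSum hs)
  rw [one_div, Real.log_inv, sub_neg_eq_add, add_comm, ← Real.log_mul hs'.ne' hz.ne']
  exact abs_le_max_abs_abs (Real.log_le_log (by linarith) hlo.le)
    (Real.log_le_log (mul_pos hs' hz) hhi.le)

end FLTAgent.TW.RayL
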