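import Mathlib.Algebra.Module.ZLattice.Summable
import Mathlib.Analysis.SpecialFunctions.Log.Basic
import Mathlib.Analysis.SpecialFunctions.Pow.Real
import Mathlib.Topology.Algebra.InfiniteSum.Real

/-!
# Translates of a lattice give the same Dirichlet series up to a bounded error

`shapeTerm s x = g x * W (log p x) * N x ^ (-s)`, with `p` the absolute values at the places,
`N x = ∏ p x ^ m` the norm and `W` a Lipschitz weight supported where all places are comparable.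
-/

set_option autoImplicit false

noncomputable section

open Module

namespace FLTAgent.TW.RayL

/-- Absolute values at the places, with a weight on their logarithms and a locally constant
factor. -/
structure Shape (E : Type*) [NormedAddCommGroup E] (ι : Type*) [Fintype ι] where
  /-- the absolute values -/
  p : ι → E → ℝ
  /-- the multiplicities -/
  m : ι → ℕ
  /-- the weight -/
  W : (ι → ℝ) → ℝ
  /-- the locally constant factor -/
  g : E → ℝ
  p_nonneg : ∀ w x, 0 ≤ p w x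
  p_le_norm : ∀ w x, p w x ≤ ‖x‖
  p_lipschitz : ∀ w x y, |p w x - p w y| ≤ ‖x - y‖
  exists_norm_le : ∀ x, ∃ w, ‖x‖ ≤ p w x
  /-- Lipschitz constant and bound of the weight -/
  Λ : ℝ
  Λ_nonneg : 0 ≤ Λ
  W_le : ∀ a, |W a| ≤ Λ
  W_lipschitz : ∀ a b, |W a - W b| ≤ Λ * ‖a - b‖
  /-- size of the support of the weight -/
  M : ℝ
  M_nonneg : 0 ≤ M
  W_support : ∀ a, W a ≠ 0 → ∀ v w, a v - a w ≤ M
  g_le : ∀ x, |g x| ≤ 1
  g_locally_constant : ∀ x y, (∀ w, ‖x - y‖ < p w x) → g y = g x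

namespace Shape

variable {E : Type*} [NormedAddCommGroup E] {ι : Type*} [Fintype ι] (S : Shape E ι)

/-- The degree. -/
def deg : ℕ := ∑ w, S.m w

/-- The norm. -/
def nrm (x : E) : ℝ := ∏ w, S.p w x ^ S.m w

/-- The logarithms of the absolute values. -/
def lg (x : E) : ι → ℝ := fun w => Real.log (S.p w x)

open Classical in
/-- The summand, cut off where the norm is small (there are no lattice points there). -/
def term (s : ℝ) (x : E) : ℝ :=
  if 1 / 2 ≤ S.nrm x ∧ ∀ w, 0 < S.p w x then S.g x * S.W (S.lg x) * S.nrm x ^ (-s) else 0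

theorem nrm_nonneg (x : E) : 0 ≤ S.nrm x :=
  Finset.prod_nonneg fun w _ => pow_nonneg (S.p_nonneg w x) _

theorem nrm_eq_exp {x : E} (hx : ∀ w, 0 < S.p w x) :
    S.nrm x = Real.exp (∑ w, S.m w * S.lg x w) := by
  rw [Real.exp_sum, nrm]
  exact Finset.prod_congr rfl fun w _ => by rw [lg, ← Real.rpow_natCast, Real.rpow_def_of_pos (hx w),
    mul_comm]

theorem abs_term_le (s : ℝ) (hs0 : 0 ≤ s) (hs : s ≤ 2) (x : E) : |S.term s x| ≤ 4 * S.Λ := by
  unfold term
  split_ifs with h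
  · rw [abs_mul, abs_mul]
    have h1 : |S.nrm x ^ (-s)| ≤ 4 := by
      rw [abs_of_nonneg (Real.rpow_nonneg (S.nrm_nonneg x) _),
        Real.rpow_neg (S.nrm_nonneg x), inv_le_iff_one_le_mul₀ (Real.rpow_pos_of_pos (by linarith) _)]
      have h2 : (1 / 2 : ℝ) ^ (2 : ℝ) ≤ (1 / 2 : ℝ) ^ s :=
        Real.rpow_le_rpow_of_exponent_ge (by norm_num) (by norm_num) hs
      have h3 : (1 / 2 : ℝ) ^ s ≤ S.nrm x ^ s := Real.rpow_le_rpow (by norm_num) h.1 hs0
      norm_num at h2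
      linarith
    calc |S.g x| * |S.W (S.lg x)| * |S.nrm x ^ (-s)| ≤ 1 * S.Λ * 4 :=
          mul_le_mul (mul_le_mul (S.g_le x) (S.W_le _) (abs_nonneg _) zero_le_one) h1 (abs_nonneg _)
            (by simpa using S.Λ_nonneg)
      _ = 4 * S.Λ := by ring
  · simpa using S.Λ_nonneg

/-- The comparability constant on the support. -/
def ratio : ℝ := Real.exp (-S.M)

theorem ratio_pos : 0 < S.ratio := Real.exp_pos _

theorem ratio_le_one : S.ratio ≤ 1 := Real.exp_le_one_iff.2 (neg_nonpos.2 S.M_nonneg)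

theorem term_ne_zero {s : ℝ} {x : E} (h : S.term s x ≠ 0) :
    (∀ w, 0 < S.p w x) ∧ ∀ w, S.ratio * ‖x‖ ≤ S.p w x := by
  unfold term at h
  split_ifs at h with hc
  · refine ⟨hc.2, fun w => ?_⟩
    obtain ⟨v, hv⟩ := S.exists_norm_le x
    have hW : S.W (S.lg x) ≠ 0 := fun h0 => h (by simp [h0])
    have hle : S.lg x v - S.lg x w ≤ S.M := S.W_support _ hW v w
    calc S.ratio * ‖x‖ ≤ S.ratio * S.p v x := mul_le_mul_of_nonneg_left hv S.ratio_pos.le
      _ = Real.exp (-S.M + S.lg x v) := by rw [Real.exp_add, lg, Real.exp_log (hc.2 v)]; rfl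
      _ ≤ Real.exp (S.lg x w) := Real.exp_le_exp.2 (by linarith)
      _ = S.p w x := Real.exp_log (hc.2 w)
  · exact absurd rfl h

theorem lg_sub_le {x y : E} {c : ℝ} (hc : 0 < c) (hx : ∀ w, c ≤ S.p w x) (hy : ∀ w, c ≤ S.p w y) :
    ‖S.lg x - S.lg y‖ ≤ ‖x - y‖ / c := by
  rw [pi_norm_le_iff_of_nonneg (by positivity)]
  intro w
  rw [Pi.sub_apply, Real.norm_eq_abs, lg, lg]
  have hxw := hc.trans_le (hx w)
  have hyw := hc.trans_le (hy w)
  have key : ∀ a b : ℝ, c ≤ b → 0 < a → Real.log a - Real.log b ≤ |a - b| / c := by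
    intro a b hb ha
    have hb0 := hc.trans_le hb
    rw [← Real.log_div ha.ne' hb0.ne']
    refine (Real.log_le_sub_one_of_pos (div_pos ha hb0)).trans ?_
    rw [div_sub_one hb0.ne']
    exact (div_le_div_of_nonneg_right (le_abs_self _) hb0.le).trans
      (div_le_div_of_nonneg_left (abs_nonneg _) hc hb)
  refine (abs_sub_le_iff.2 ⟨key _ _ (hy w) hxw, ?_⟩).trans
    (div_le_div_of_nonneg_right (S.p_lipschitz w x y) hc.le)
  rw [abs_sub_comm]
  exact key _ _ (hx w) hyw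

/-- `|term|` is at most a power of the length. -/
theorem abs_term_le_rpow {s : ℝ} (hs : 0 ≤ s) {x : E} (hx : x ≠ 0) :
    |S.term s x| ≤ S.Λ * (S.ratio * ‖x‖) ^ (-((S.deg : ℝ) * s)) := by
  have hpos : 0 < S.ratio * ‖x‖ := mul_pos S.ratio_pos (norm_pos_iff.2 hx)
  by_cases h : S.term s x = 0
  · rw [h, abs_zero]
    exact mul_nonneg S.Λ_nonneg (Real.rpow_nonneg hpos.le _)
  obtain ⟨hp, hr⟩ := S.term_ne_zero h
  have hN : (S.ratio * ‖x‖) ^ S.deg ≤ S.nrm x := by
    rw [deg, ← Finset.prod_pow_eq_pow_sum]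
    exact Finset.prod_le_prod (fun w _ => pow_nonneg hpos.le _)
      fun w _ => pow_le_pow_left₀ hpos.le (hr w) _
  unfold term
  split_ifs with hc
  · rw [abs_mul, abs_mul]
    have h1 : |S.nrm x ^ (-s)| ≤ (S.ratio * ‖x‖) ^ (-((S.deg : ℝ) * s)) := by
      rw [abs_of_nonneg (Real.rpow_nonneg (S.nrm_nonneg x) _), neg_mul_eq_mul_neg,
        Real.rpow_mul hpos.le, Real.rpow_natCast]
      exact Real.rpow_le_rpow_of_nonpos (pow_pos hpos _) hN (neg_nonpos.2 hs)
    exact (mul_le_mul (mul_le_mul (S.g_le x) (S.W_le _) (abs_nonneg _) zero_le_one) h1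
      (abs_nonneg _) (by simpa using S.Λ_nonneg)).trans_eq (by ring)
  · exact absurd (by unfold term; rw [if_neg hc]) h

theorem abs_term_sub_le_of_term_ne_zero {s : ℝ} (hs1 : 1 ≤ s) (hs2 : s ≤ 2) {x y : E}
    (h : S.term s x ≠ 0) (hfar : 2 * ‖x - y‖ < S.ratio * ‖x‖) (hbig : 2 ≤ S.ratio * ‖x‖)
    (hdeg : 1 ≤ S.deg) :
    |S.term s x - S.term s y| ≤ (4 * (S.deg : ℝ) + 2) * S.Λ * ‖x - y‖
      * (S.ratio * ‖x‖ / 2) ^ (-((S.deg : ℝ) + 1)) := by
  obtain ⟨hp, hr⟩ := S.term_ne_zero h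
  set c := S.ratio * ‖x‖ / 2 with hc
  have hc1 : 1 ≤ c := by linarith
  have hc0 : 0 < c := by linarith
  have hcx : ∀ w, c ≤ S.p w x := fun w => by linarith [hr w]
  have hcy : ∀ w, c ≤ S.p w y := fun w => by
    have := (abs_sub_le_iff.1 (S.p_lipschitz w x y)).1
    linarith [hr w]
  have hgy : S.g y = S.g x := S.g_locally_constant x y fun w => by
    linarith [hr w, norm_nonneg (x - y)]
  have hexp : ∀ z : E, (∀ w, c ≤ S.p w z) →
      S.term s z = S.g z * (S.W (S.lg z) * Real.exp (-s * ∑ w, S.m w * S.lg z w)) ∧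
      c ^ S.deg ≤ S.nrm z := by
    intro z hz
    have hzp : ∀ w, 0 < S.p w z := fun w => hc0.trans_le (hz w)
    have hN : c ^ S.deg ≤ S.nrm z := by
      rw [deg, ← Finset.prod_pow_eq_pow_sum]
      exact Finset.prod_le_prod (fun w _ => pow_nonneg hc0.le _)
        fun w _ => pow_le_pow_left₀ hc0.le (hz w) _
    refine ⟨?_, hN⟩
    have h2 : 1 / 2 ≤ S.nrm z := by linarith [one_le_pow₀ (n := S.deg) hc1]
    rw [term, if_pos ⟨h2, hzp⟩, mul_assoc, S.nrm_eq_exp hzp, ← Real.exp_mul]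
    congr 3
    ring
  obtain ⟨ex, hNx⟩ := hexp x hcx
  obtain ⟨ey, hNy⟩ := hexp y hcy
  set u := -s * ∑ w, S.m w * S.lg x w with hu
  set v := -s * ∑ w, S.m w * S.lg y w with hv
  have hbound : ∀ z : E, (∀ w, c ≤ S.p w z) →
      Real.exp (-s * ∑ w, S.m w * S.lg z w) ≤ c ^ (-(S.deg : ℝ)) := by
    intro z hz
    have : (S.deg : ℝ) * Real.log c ≤ ∑ w, S.m w * S.lg z w := by
      rw [deg, Nat.cast_sum, Finset.sum_mul]
      exact Finset.sum_le_sum fun w _ =>
        mul_le_mul_of_nonneg_left (Real.log_le_log hc0 (hz w)) (Nat.cast_nonneg _)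
    rw [Real.rpow_def_of_pos hc0]
    refine Real.exp_le_exp.2 ?_
    have h0 : 0 ≤ Real.log c * (S.deg : ℝ) := mul_nonneg (Real.log_nonneg hc1) (Nat.cast_nonneg _)
    nlinarith
  have hlg := S.lg_sub_le hc0 hcx hcy
  have huv : |u - v| ≤ 2 * (S.deg : ℝ) * (‖x - y‖ / c) := by
    have h1 : |∑ w, S.m w * (S.lg x w - S.lg y w)| ≤ (S.deg : ℝ) * (‖x - y‖ / c) := by
      rw [deg, Nat.cast_sum, Finset.sum_mul]
      refine (Finset.abs_sum_le_sum_abs _ _).trans (Finset.sum_le_sum fun w _ => ?_)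
      rw [abs_mul, Nat.abs_cast]
      exact mul_le_mul_of_nonneg_left ((norm_le_pi_norm _ w).trans hlg) (Nat.cast_nonneg _)
    have h2 : u - v = -s * ∑ w, S.m w * (S.lg x w - S.lg y w) := by
      simp only [hu, hv, mul_sub, Finset.sum_sub_distrib]
    rw [h2, abs_mul, abs_neg, abs_of_nonneg (by linarith : (0 : ℝ) ≤ s), mul_assoc (2 : ℝ)]
    exact mul_le_mul hs2 h1 (abs_nonneg _) (by norm_num)
  have hD : |Real.exp u - Real.exp v| ≤ c ^ (-(S.deg : ℝ)) * |u - v| := by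
    have key : ∀ a b : ℝ, Real.exp a ≤ c ^ (-(S.deg : ℝ)) →
        Real.exp a - Real.exp b ≤ c ^ (-(S.deg : ℝ)) * |a - b| := by
      intro a b ha
      have h1 := Real.add_one_le_exp (b - a)
      have h2 : Real.exp a * Real.exp (b - a) = Real.exp b := by rw [← Real.exp_add]; ring_nf
      have h3 := mul_le_mul_of_nonneg_left h1 (Real.exp_nonneg a)
      have h4 : Real.exp a * (a - b) ≤ c ^ (-(S.deg : ℝ)) * |a - b| :=
        (mul_le_mul_of_nonneg_left (le_abs_self _) (Real.exp_nonneg a)).trans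
          (mul_le_mul_of_nonneg_right ha (abs_nonneg _))
      nlinarith
    refine abs_sub_le_iff.2 ⟨key u v (hbound x hcx), ?_⟩
    rw [abs_sub_comm]
    exact key v u (hbound y hcy)
  rw [ex, ey, hgy, ← mul_sub, abs_mul]
  refine (mul_le_of_le_one_left (abs_nonneg _) (S.g_le x)).trans ?_
  have hpow : c ^ (-((S.deg : ℝ) + 1)) = c ^ (-(S.deg : ℝ)) / c := by
    rw [neg_add, ← sub_eq_add_neg, Real.rpow_sub hc0, Real.rpow_one]
  rw [hpow]
  have hc' := Real.rpow_nonneg hc0.le (-(S.deg : ℝ))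
  have hdiv : 0 ≤ ‖x - y‖ / c := by positivity
  calc |S.W (S.lg x) * Real.exp u - S.W (S.lg y) * Real.exp v|
      = |S.W (S.lg x) * (Real.exp u - Real.exp v)
          + (S.W (S.lg x) - S.W (S.lg y)) * Real.exp v| := by ring_nf
    _ ≤ |S.W (S.lg x) * (Real.exp u - Real.exp v)|
          + |(S.W (S.lg x) - S.W (S.lg y)) * Real.exp v| := abs_add_le _ _
    _ ≤ S.Λ * (c ^ (-(S.deg : ℝ)) * (2 * (S.deg : ℝ) * (‖x - y‖ / c)))
          + S.Λ * (‖x - y‖ / c) * c ^ (-(S.deg : ℝ)) := by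
      rw [abs_mul, abs_mul, Real.abs_exp]
      refine add_le_add (mul_le_mul (S.W_le _) (hD.trans (mul_le_mul_of_nonneg_left huv hc'))
        (abs_nonneg _) S.Λ_nonneg) ?_
      exact mul_le_mul ((S.W_lipschitz _ _).trans (mul_le_mul_of_nonneg_left hlg S.Λ_nonneg))
        (hbound y hcy) (Real.exp_nonneg _) (mul_nonneg S.Λ_nonneg hdiv)
    _ ≤ _ := by
      rw [show (4 * (S.deg : ℝ) + 2) * S.Λ * ‖x - y‖ * (c ^ (-(S.deg : ℝ)) / c)
        = (4 * (S.deg : ℝ) + 2) * (S.Λ * c ^ (-(S.deg : ℝ)) * (‖x - y‖ / c)) by ring]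
      have : 0 ≤ S.Λ * c ^ (-(S.deg : ℝ)) * (‖x - y‖ / c) :=
        mul_nonneg (mul_nonneg S.Λ_nonneg hc') hdiv
      have h1 : (1 : ℝ) ≤ S.deg := by exact_mod_cast hdeg
      nlinarith

variable [NormedSpace ℝ E] [FiniteDimensional ℝ E] {L : Submodule ℤ E} [DiscreteTopology L]

omit [NormedSpace ℝ E] [FiniteDimensional ℝ E] in
theorem finite_norm_add_le [ProperSpace E] (a : E) (R : ℝ) :
    {x : L | ‖(x : E) + a‖ ≤ R}.Finite := by
  have : IsClosed (L : Set E) := AddSubgroup.isClosed_of_discrete (H := L.toAddSubgroup)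
  have h := Metric.finite_isBounded_inter_isClosed DiscreteTopology.isDiscrete
    (Metric.isBounded_closedBall (x := (0 : E)) (r := R + ‖a‖)) this
  refine Set.Finite.of_finite_image (f := Subtype.val) (h.subset ?_) Subtype.val_injective.injOn
  rintro _ ⟨x, hx, rfl⟩
  refine ⟨?_, x.2⟩
  rw [mem_closedBall_zero_iff]
  have := norm_le_add_norm_add (x : E) a
  rw [Set.mem_ofPred_eq] at hx
  linarith

theorem summable_term {s : ℝ} (hs : 1 < s) (hrank : Module.finrank ℤ L = S.deg)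
    (hdeg : 1 ≤ S.deg) (a : E) : Summable fun x : L => S.term s ((x : E) + a) := by
  have := FiniteDimensional.proper ℝ E
  have hlt : -((S.deg : ℝ) * s) < -(Module.finrank ℤ L : ℝ) := by
    rw [hrank, neg_lt_neg_iff]
    exact lt_mul_of_one_lt_right (by exact_mod_cast hdeg) hs
  have hsum := (ZLattice.summable_norm_sub_rpow (L := L) _ hlt (-a)).mul_left
    (S.Λ * S.ratio ^ (-((S.deg : ℝ) * s)))
  refine Summable.of_norm_bounded_eventually hsum ?_
  rw [Filter.eventually_cofinite]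
  refine (finite_norm_add_le (L := L) a 0).subset fun x hx => ?_
  rw [Set.mem_ofPred_eq] at hx ⊢
  by_contra h0
  have hne : (x : E) + a ≠ 0 := fun h => h0 (by simp [h])
  refine hx ?_
  rw [sub_neg_eq_add, Real.norm_eq_abs, mul_assoc, ← Real.mul_rpow S.ratio_pos.le (norm_nonneg _)]
  exact S.abs_term_le_rpow (by linarith) hne

/-- The main estimate: two translates of a lattice differ by a bounded amount. -/
theorem exists_bound_tsum_sub (hrank : Module.finrank ℤ L = S.deg) (hdeg : 1 ≤ S.deg) (a b : E) :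
    ∃ C : ℝ, ∀ s : ℝ, 1 < s → s ≤ 2 →
      |(∑' x : L, S.term s ((x : E) + a)) - ∑' x : L, S.term s ((x : E) + b)| ≤ C := by
  classical
  have := FiniteDimensional.proper ℝ E
  set n : ℝ := (S.deg : ℝ)
  have hn : (0 : ℝ) ≤ n := Nat.cast_nonneg _
  have hlt : -(n + 1) < -(Module.finrank ℤ L : ℝ) := by rw [hrank]; show -(n + 1) < -n; linarith
  set R : ℝ := (4 + 4 * ‖a - b‖) / S.ratio with hR
  set A : ℝ := (4 * n + 2) * S.Λ * ‖a - b‖ * (S.ratio / 2) ^ (-(n + 1))
  have hA : 0 ≤ A := mul_nonneg (mul_nonneg (mul_nonneg (by linarith) S.Λ_nonneg) (norm_nonneg _))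
    (Real.rpow_nonneg (by linarith [S.ratio_pos]) _)
  set U := (finite_norm_add_le (L := L) a R).toFinset ∪ (finite_norm_add_le (L := L) b R).toFinset
  have hsa := (ZLattice.summable_norm_sub_rpow (L := L) _ hlt (-a)).mul_left A
  have hsb := (ZLattice.summable_norm_sub_rpow (L := L) _ hlt (-b)).mul_left A
  have hfin : Summable fun x : L => if x ∈ U then 8 * S.Λ else 0 :=
    summable_of_ne_finset_zero (s := U) fun x hx => if_neg hx
  refine ⟨∑' x : L, (A * ‖(x : E) - -a‖ ^ (-(n + 1)) + A * ‖(x : E) - -b‖ ^ (-(n + 1))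
    + if x ∈ U then 8 * S.Λ else 0), fun s hs1 hs2 => ?_⟩
  rw [← (S.summable_term hs1 hrank hdeg a).tsum_sub (S.summable_term hs1 hrank hdeg b)]
  rw [← Real.norm_eq_abs]
  refine tsum_of_norm_bounded ((hsa.add hsb).add hfin).hasSum fun x => ?_
  rw [Real.norm_eq_abs]
  simp only [sub_neg_eq_add]
  by_cases hx : x ∈ U
  · rw [if_pos hx]
    have := S.abs_term_le s (by linarith) hs2 ((x : E) + a)
    have := S.abs_term_le s (by linarith) hs2 ((x : E) + b)
    have := abs_sub (S.term s ((x : E) + a)) (S.term s ((x : E) + b))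
    have : 0 ≤ A * ‖(x : E) + a‖ ^ (-(n + 1)) := mul_nonneg hA (Real.rpow_nonneg (norm_nonneg _) _)
    have : 0 ≤ A * ‖(x : E) + b‖ ^ (-(n + 1)) := mul_nonneg hA (Real.rpow_nonneg (norm_nonneg _) _)
    linarith
  rw [if_neg hx, add_zero]
  simp only [U, Finset.mem_union, Set.Finite.mem_toFinset, Set.mem_ofPred_eq, not_or, not_le] at hx
  have hpos : ∀ y : E, R < ‖y‖ → 2 * ‖a - b‖ < S.ratio * ‖y‖ ∧ 2 ≤ S.ratio * ‖y‖ := fun y hy => by
    rw [hR, div_lt_iff₀ S.ratio_pos] at hy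
    constructor <;> linarith [norm_nonneg (a - b)]
  have key : ∀ y z : E, R < ‖y‖ → ‖y - z‖ = ‖a - b‖ → S.term s y ≠ 0 →
      |S.term s y - S.term s z| ≤ A * ‖y‖ ^ (-(n + 1)) := by
    intro y z hy hyz hne
    refine (S.abs_term_sub_le_of_term_ne_zero hs1.le hs2 hne (by rw [hyz]; exact (hpos y hy).1)
      (hpos y hy).2 hdeg).trans_eq ?_
    rw [hyz, show S.ratio * ‖y‖ / 2 = S.ratio / 2 * ‖y‖ by ring,
      Real.mul_rpow (by linarith [S.ratio_pos]) (norm_nonneg _)]
    ring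
  have hdiff : (x : E) + a - ((x : E) + b) = a - b := by abel
  have hnn : ∀ y : E, 0 ≤ A * ‖y‖ ^ (-(n + 1)) :=
    fun y => mul_nonneg hA (Real.rpow_nonneg (norm_nonneg _) _)
  by_cases ha : S.term s ((x : E) + a) = 0
  · by_cases hb : S.term s ((x : E) + b) = 0
    · rw [ha, hb, sub_zero, abs_zero]
      exact add_nonneg (hnn _) (hnn _)
    · rw [abs_sub_comm]
      refine (key _ ((x : E) + a) hx.2 ?_ hb).trans (le_add_of_nonneg_left (hnn _))
      rw [norm_sub_rev, hdiff]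
  · exact (key _ _ hx.1 (by rw [hdiff]) ha).trans (le_add_of_nonneg_right (hnn _))

end Shape

end FLTAgent.TW.RayL
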