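import Fermat.Agent.TW.RayL.UnitWeight
import Mathlib.NumberTheory.NumberField.Units.DirichletTheorem
import Mathlib.RingTheory.Ideal.Norm.AbsNorm

/-!
# Sums over principal ideals as weighted sums over lattice points
-/

set_option autoImplicit false

noncomputable section

open Module NumberField NumberField.InfinitePlace NumberField.mixedEmbedding NumberField.Units
  NumberField.Units.dirichletUnitTheorem

open scoped nonZeroDivisors

attribute [local instance] Classical.propDecidable

namespace FLTAgent.TW.RayL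

variable (K : Type*) [Field K]

/-- The embedding of the integers in the mixed space. -/
def embO : 𝓞 K →+* mixedSpace K := (mixedEmbedding K).comp (algebraMap (𝓞 K) K)

variable {K}

theorem embO_injective [NumberField K] : Function.Injective (embO K) :=
  (mixedEmbedding_injective K).comp RingOfIntegers.coe_injective

theorem embO_mul_unit [NumberField K] (u : (𝓞 K)ˣ) (a : 𝓞 K) :
    embO K (u * a) = u • embO K a := by
  rw [unitSMul_smul, map_mul]
  rfl

variable [NumberField K]

theorem norm_embO (a : 𝓞 K) :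
    mixedEmbedding.norm (embO K a) = (Ideal.absNorm (Ideal.span {a}) : ℝ) := by
  show mixedEmbedding.norm (mixedEmbedding K (a : K)) = _
  rw [norm_eq_norm, Ideal.absNorm_span_singleton, ← Algebra.coe_norm_int, Nat.cast_natAbs,
    Int.cast_abs, Rat.cast_abs, Rat.cast_intCast]

theorem one_le_norm_embO {a : 𝓞 K} (ha : a ≠ 0) : 1 ≤ mixedEmbedding.norm (embO K a) := by
  rw [norm_embO, Nat.one_le_cast, Nat.one_le_iff_ne_zero, ne_eq, Ideal.absNorm_eq_zero_iff,
    Ideal.span_singleton_eq_bot]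
  exact ha

/-- The weight at an integer. -/
def unitWt (a : 𝓞 K) : ℝ := weight K fun w => Real.log (normAtPlace w (embO K a))

theorem unitWt_nonneg (a : 𝓞 K) : 0 ≤ unitWt a := weight_nonneg K _

theorem unitWt_torsion_mul {ζ : (𝓞 K)ˣ} (hζ : ζ ∈ torsion K) (a : 𝓞 K) :
    unitWt ((ζ : 𝓞 K) * a) = unitWt a := by
  refine congrArg (weight K) (funext fun w => ?_)
  rw [embO_mul_unit, unitSMul_smul, map_mul, normAtPlace_apply, (mem_torsion K).1 hζ, one_mul]

variable (K) in
/-- Roots of unity times exponents of fundamental units. -/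
def unitsEquiv : (torsion K) × (Fin (rank K) → ℤ) ≃ (𝓞 K)ˣ :=
  Equiv.ofBijective (fun p => (p.1 : (𝓞 K)ˣ) * unitOfExponents K p.2)
    ⟨fun _ _ h => (exist_unique_eq_mul_prod K _).unique rfl h,
      fun u => ⟨(exist_unique_eq_mul_prod K u).exists.choose,
        (exist_unique_eq_mul_prod K u).exists.choose_spec.symm⟩⟩

theorem hasSum_unitWt {a : 𝓞 K} (ha : a ≠ 0) :
    HasSum (fun u : (𝓞 K)ˣ => unitWt ((u : 𝓞 K) * a)) (torsionOrder K : ℝ) := by
  have hx : mixedEmbedding.norm (embO K a) ≠ 0 := (zero_lt_one.trans_le (one_le_norm_embO ha)).ne'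
  rw [← (unitsEquiv K).hasSum_iff]
  have hsum := hasSum_weight_smul hx
  have hterm : ∀ p : (torsion K) × (Fin (rank K) → ℤ),
      unitWt ((unitsEquiv K p : 𝓞 K) * a)
        = weight K (fun w => Real.log (normAtPlace w (unitOfExponents K p.2 • embO K a))) := by
    rintro ⟨ζ, k⟩
    show unitWt ((((ζ : (𝓞 K)ˣ) * unitOfExponents K k : (𝓞 K)ˣ) : 𝓞 K) * a) = _
    rw [Units.val_mul, mul_assoc, unitWt_torsion_mul ζ.2, unitWt, embO_mul_unit]
  simp only [Function.comp_def, hterm]
  have hs : Summable fun p : (torsion K) × (Fin (rank K) → ℤ) =>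
      weight K (fun w => Real.log (normAtPlace w (unitOfExponents K p.2 • embO K a))) := by
    refine (summable_prod_of_nonneg (fun p => weight_nonneg K _)).2 ⟨fun _ => hsum.summable, ?_⟩
    exact .of_finite
  refine hs.hasSum_iff.2 ?_
  rw [hs.tsum_prod]
  have := Fintype.ofFinite (torsion K)
  simp only [hsum.tsum_eq]
  rw [torsionOrder, tsum_fintype, Nat.card_eq_fintype_card]
  simp

variable (J : (Ideal (𝓞 K))⁰)

/-- Nonzero principal ideals divisible by `J`. -/
abbrev PrincipalMultiples : Type _ :=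
  {I : Ideal (𝓞 K) // I ≠ ⊥ ∧ I.IsPrincipal ∧ I ≤ (J : Ideal (𝓞 K))}

/-- Nonzero elements of `J`. -/
abbrev NonzeroMem : Type _ := {a : 𝓞 K // a ≠ 0 ∧ a ∈ (J : Ideal (𝓞 K))}

variable {J}

/-- A generator of a principal ideal. -/
def gen (I : PrincipalMultiples J) : NonzeroMem J :=
  ⟨I.2.2.1.principal.choose, by
    have h : (I : Ideal (𝓞 K)) = Ideal.span {I.2.2.1.principal.choose} :=
      I.2.2.1.principal.choose_spec
    exact ⟨fun h0 => I.2.1 (h.trans (Ideal.span_singleton_eq_bot.2 h0)),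
      I.2.2.2 (h.ge (Ideal.mem_span_singleton_self _))⟩⟩

omit [NumberField K] in
theorem span_gen (I : PrincipalMultiples J) : Ideal.span {(gen I : 𝓞 K)} = I :=
  I.2.2.1.principal.choose_spec.symm

variable (J) in
/-- An element is a unit times the chosen generator of its ideal. -/
def elemEquiv : PrincipalMultiples J × (𝓞 K)ˣ ≃ NonzeroMem J :=
  Equiv.ofBijective (fun p => ⟨(p.2 : 𝓞 K) * (gen p.1 : 𝓞 K), mul_ne_zero p.2.ne_zero (gen p.1).2.1,
      Ideal.mul_mem_left _ _ (gen p.1).2.2⟩) <| by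
    constructor
    · rintro ⟨I, u⟩ ⟨I', u'⟩ h
      have h' : (u : 𝓞 K) * (gen I : 𝓞 K) = (u' : 𝓞 K) * (gen I' : 𝓞 K) := congrArg Subtype.val h
      have hI : I = I' := Subtype.ext (by
        rw [← span_gen I, ← span_gen I', ← Ideal.span_singleton_mul_left_unit u.isUnit,
          h', Ideal.span_singleton_mul_left_unit u'.isUnit])
      subst hI
      exact Prod.ext rfl (Units.ext (mul_right_cancel₀ (gen I).2.1 h'))
    · rintro ⟨a, ha0, haJ⟩
      set I : PrincipalMultiples J := ⟨Ideal.span {a}, by simpa using ha0, ⟨⟨a, rfl⟩⟩,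
        (Ideal.span_singleton_le_iff_mem _).2 haJ⟩
      obtain ⟨u, hu⟩ := Ideal.span_singleton_eq_span_singleton.1 (span_gen I)
      refine ⟨(I, u), Subtype.ext ?_⟩
      rw [mul_comm] at hu
      exact hu

theorem elemEquiv_span (I : PrincipalMultiples J) (u : (𝓞 K)ˣ) :
    Ideal.span {((elemEquiv J (I, u) : NonzeroMem J) : 𝓞 K)} = I := by
  show Ideal.span {(u : 𝓞 K) * (gen I : 𝓞 K)} = _
  rw [Ideal.span_singleton_mul_left_unit u.isUnit, span_gen]

/-- Weighted summation over elements is summation over principal ideals. -/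
theorem hasSum_unitWt_smul {F : Ideal (𝓞 K) → ℂ}
    (hF : Summable fun I : PrincipalMultiples J => ‖F I‖) :
    HasSum (fun a : NonzeroMem J => (unitWt (a : 𝓞 K) : ℂ) * F (Ideal.span {(a : 𝓞 K)}))
      ((torsionOrder K : ℂ) * ∑' I : PrincipalMultiples J, F I) := by
  rw [← (elemEquiv J).hasSum_iff]
  have hterm : ∀ p : PrincipalMultiples J × (𝓞 K)ˣ,
      (unitWt ((elemEquiv J p : NonzeroMem J) : 𝓞 K) : ℂ) *
          F (Ideal.span {((elemEquiv J p : NonzeroMem J) : 𝓞 K)})
        = (unitWt ((p.2 : 𝓞 K) * (gen p.1 : 𝓞 K)) : ℂ) * F p.1 := by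
    rintro ⟨I, u⟩
    rw [elemEquiv_span]
    rfl
  simp only [Function.comp_def, hterm]
  have hnorm : Summable fun p : PrincipalMultiples J × (𝓞 K)ˣ =>
      ‖(unitWt ((p.2 : 𝓞 K) * (gen p.1 : 𝓞 K)) : ℂ) * F p.1‖ := by
    refine (summable_prod_of_nonneg (fun p => norm_nonneg _)).2 ⟨fun I => ?_, ?_⟩
    · simp only [norm_mul, Complex.norm_real, Real.norm_eq_abs, abs_of_nonneg (unitWt_nonneg _)]
      exact (hasSum_unitWt (gen I).2.1).summable.mul_right _
    · simp only [norm_mul, Complex.norm_real, Real.norm_eq_abs, abs_of_nonneg (unitWt_nonneg _)]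
      simp only [fun I : PrincipalMultiples J =>
        ((hasSum_unitWt (gen I).2.1).mul_right ‖F I‖).tsum_eq]
      exact hF.mul_left _
  have hs := hnorm.of_norm
  refine hs.hasSum_iff.2 ?_
  rw [hs.tsum_prod, ← tsum_mul_left]
  refine tsum_congr fun I => ?_
  exact ((Complex.hasSum_ofReal.2 (hasSum_unitWt (gen I).2.1)).mul_right (F I)).tsum_eq.trans
    (by rw [Complex.ofReal_natCast])

theorem summable_of_summable_unitWt {F : Ideal (𝓞 K) → ℂ}
    (hF : Summable fun a : NonzeroMem J => unitWt (a : 𝓞 K) * ‖F (Ideal.span {(a : 𝓞 K)})‖) :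
    Summable fun I : PrincipalMultiples J => ‖F I‖ := by
  have h := (elemEquiv J).summable_iff.2 hF
  have h2 := ((summable_prod_of_nonneg (fun p => mul_nonneg (unitWt_nonneg _) (norm_nonneg _))).1 h).2
  have heq : ∀ I : PrincipalMultiples J,
      ∑' u : (𝓞 K)ˣ, unitWt ((elemEquiv J (I, u) : NonzeroMem J) : 𝓞 K) *
          ‖F (Ideal.span {((elemEquiv J (I, u) : NonzeroMem J) : 𝓞 K)})‖
        = torsionOrder K * ‖F I‖ := by
    intro I
    simp only [elemEquiv_span]
    exact ((hasSum_unitWt (gen I).2.1).mul_right ‖F I‖).tsum_eq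
  simp only [Function.comp_apply, heq] at h2
  exact (summable_mul_left_iff (Nat.cast_ne_zero.2 (torsionOrder_ne_zero K))).1 h2

end FLTAgent.TW.RayL
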