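import Fermat.Agent.TW.RayL.Orbit

/-!
# Weighted sums of periodic functions over ideals

The sum over an ideal `A` of `f (a mod m) * weight * N(a)^(-s)` depends, up to a bounded error,
only on the index of a common sublattice and on the sum of `f`.
-/

set_option autoImplicit false

noncomputable section

open Module NumberField NumberField.InfinitePlace NumberField.mixedEmbedding NumberField.Units
  NumberField.Units.dirichletUnitTheorem

open scoped nonZeroDivisors

attribute [local instance] Classical.propDecidable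

namespace FLTAgent.TW.RayL

variable (K : Type*) [Field K] [NumberField K]

/-- The shape with trivial sign function. -/
def idealShape : Shape (mixedSpace K) (InfinitePlace K) :=
  unitShape K (fun _ => 1) fun _ => abs_one.le

theorem idealShape_deg : (idealShape K).deg = finrank ℚ K := unitShape_deg _ _

theorem one_le_idealShape_deg : 1 ≤ (idealShape K).deg := by
  rw [idealShape_deg]
  exact Module.finrank_pos

/-- The lattice of an ideal. -/
abbrev latt (M : (Ideal (𝓞 K))⁰) : Submodule ℤ (mixedSpace K) :=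
  idealLattice K (FractionalIdeal.mk0 K M)

theorem finrank_latt (M : (Ideal (𝓞 K))⁰) : finrank ℤ (latt K M) = (idealShape K).deg := by
  rw [ZLattice.rank ℝ, mixedEmbedding.finrank, idealShape_deg]

variable {K}

/-- The weighted term at an integer. -/
def wTerm (s : ℝ) (a : 𝓞 K) : ℝ := (idealShape K).term s (embO K a)

theorem wTerm_zero (s : ℝ) : wTerm s (0 : 𝓞 K) = 0 := by
  rw [wTerm, Shape.term, if_neg]
  rw [map_zero]
  intro h
  have h1 := h.1
  rw [idealShape, unitShape_nrm, mixedEmbedding.norm_eq_zero_iff.2 ?_] at h1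
  · norm_num at h1
  · exact ⟨Classical.arbitrary _, map_zero _⟩

theorem wTerm_of_ne_zero (s : ℝ) {a : 𝓞 K} (ha : a ≠ 0) :
    wTerm s a = unitWt a * (Ideal.absNorm (Ideal.span {a}) : ℝ) ^ (-s) := by
  have h1 := one_le_norm_embO ha
  rw [wTerm, Shape.term, if_pos, idealShape, unitShape_nrm, norm_embO]
  · show 1 * unitWt a * _ = _
    rw [one_mul]
  · refine ⟨?_, fun w => ?_⟩
    · rw [idealShape, unitShape_nrm]
      linarith
    · exact lt_of_le_of_ne (normAtPlace_nonneg _ _)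
        (mixedEmbedding.norm_ne_zero_iff.1 (zero_lt_one.trans_le h1).ne' w).symm

theorem wTerm_nonneg (s : ℝ) (a : 𝓞 K) : 0 ≤ wTerm s a := by
  rcases eq_or_ne a 0 with rfl | ha
  · rw [wTerm_zero]
  · rw [wTerm_of_ne_zero s ha]
    exact mul_nonneg (unitWt_nonneg a) (Real.rpow_nonneg (Nat.cast_nonneg _) _)

/-- An ideal as a lattice in the mixed space. -/
def lattEquiv (M : (Ideal (𝓞 K))⁰) : (M : Ideal (𝓞 K)) ≃ latt K M :=
  Equiv.ofBijective (fun a => ⟨embO K (a : 𝓞 K), (mem_idealLattice K _).2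
      ⟨((a : 𝓞 K) : K), (FractionalIdeal.mem_coeIdeal _).2 ⟨(a : 𝓞 K), a.2, rfl⟩, rfl⟩⟩) <| by
    constructor
    · intro a b h
      exact Subtype.ext (embO_injective (congrArg Subtype.val h))
    · rintro ⟨x, hx⟩
      obtain ⟨y, hy, rfl⟩ := (mem_idealLattice K _).1 hx
      obtain ⟨z, hz, rfl⟩ := (FractionalIdeal.mem_coeIdeal _).1 hy
      exact ⟨⟨z, hz⟩, rfl⟩

theorem coe_lattEquiv (M : (Ideal (𝓞 K))⁰) (a : (M : Ideal (𝓞 K))) :
    (lattEquiv M a : mixedSpace K) = embO K (a : 𝓞 K) := rfl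

theorem summable_wTerm_add (M : (Ideal (𝓞 K))⁰) {s : ℝ} (hs : 1 < s) (t : 𝓞 K) :
    Summable fun a : (M : Ideal (𝓞 K)) => wTerm s (t + (a : 𝓞 K)) := by
  have h := ((lattEquiv M).summable_iff).2
    ((idealShape K).summable_term hs (finrank_latt K M) (one_le_idealShape_deg K) (embO K t))
  refine h.congr fun a => ?_
  rw [Function.comp_apply, coe_lattEquiv, wTerm, map_add, add_comm]

theorem summable_wTerm (M : (Ideal (𝓞 K))⁰) {s : ℝ} (hs : 1 < s) :
    Summable fun a : (M : Ideal (𝓞 K)) => wTerm s (a : 𝓞 K) := by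
  simpa using summable_wTerm_add M hs 0

/-- Sum over a translate of an ideal. -/
def cosetSum (M : (Ideal (𝓞 K))⁰) (s : ℝ) (t : 𝓞 K) : ℝ :=
  ∑' a : (M : Ideal (𝓞 K)), wTerm s (t + (a : 𝓞 K))

theorem exists_bound_cosetSum_sub (M : (Ideal (𝓞 K))⁰) (t : 𝓞 K) :
    ∃ C : ℝ, ∀ s : ℝ, 1 < s → s ≤ 2 → |cosetSum M s t - cosetSum M s 0| ≤ C := by
  obtain ⟨C, hC⟩ := (idealShape K).exists_bound_tsum_sub (L := latt K M) (finrank_latt K M)
    (one_le_idealShape_deg K) (embO K t) (embO K 0)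
  have h : ∀ (u : 𝓞 K) (s : ℝ), cosetSum M s u
      = ∑' x : latt K M, (idealShape K).term s ((x : mixedSpace K) + embO K u) := fun u s => by
    rw [← (lattEquiv M).tsum_eq, cosetSum]
    exact tsum_congr fun a => by rw [coe_lattEquiv, wTerm, map_add, add_comm]
  exact ⟨C, fun s h1 h2 => by rw [h, h]; exact hC s h1 h2⟩

section Decomposition

variable (A M : (Ideal (𝓞 K))⁰) (hMA : (M : Ideal (𝓞 K)) ≤ (A : Ideal (𝓞 K)))

/-- `M` inside `A`. -/
abbrev subIn : AddSubgroup (A : Ideal (𝓞 K)).toAddSubgroup :=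
  (M : Ideal (𝓞 K)).toAddSubgroup.addSubgroupOf (A : Ideal (𝓞 K)).toAddSubgroup

/-- The cosets of `M` in `A`. -/
abbrev cosets : Type _ := (A : Ideal (𝓞 K)).toAddSubgroup ⧸ subIn A M

include hMA in
theorem natCard_cosets_mul :
    Nat.card (cosets A M) * Ideal.absNorm (A : Ideal (𝓞 K)) = Ideal.absNorm (M : Ideal (𝓞 K)) := by
  rw [Ideal.absNorm_eq_index, Ideal.absNorm_eq_index,
    ← AddSubgroup.relIndex_mul_index (Submodule.toAddSubgroup_mono hMA)]
  rfl

include hMA in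
theorem finite_cosets : Finite (cosets A M) := by
  refine Nat.finite_of_card_ne_zero fun h => ?_
  have := natCard_cosets_mul A M hMA
  rw [h, zero_mul] at this
  exact Ideal.absNorm_ne_zero_of_nonZeroDivisors M this.symm

include hMA in
/-- An element of `A` is a representative plus an element of `M`. -/
def decomp : cosets A M × (M : Ideal (𝓞 K)) ≃ (A : Ideal (𝓞 K)) where
  toFun p := ⟨((p.1.out : (A : Ideal (𝓞 K)).toAddSubgroup) : 𝓞 K) + (p.2 : 𝓞 K),
    add_mem p.1.out.2 (hMA p.2.2)⟩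
  invFun a := ⟨(QuotientAddGroup.mk (⟨(a : 𝓞 K), a.2⟩ : (A : Ideal (𝓞 K)).toAddSubgroup)),
    ⟨(a : 𝓞 K) - ((QuotientAddGroup.mk (s := subIn A M)
      (⟨(a : 𝓞 K), a.2⟩ : (A : Ideal (𝓞 K)).toAddSubgroup)).out :
        (A : Ideal (𝓞 K)).toAddSubgroup), by
      have h := (QuotientAddGroup.eq (s := subIn A M)).1 ((QuotientAddGroup.mk (s := subIn A M)
        (⟨(a : 𝓞 K), a.2⟩ : (A : Ideal (𝓞 K)).toAddSubgroup)).out_eq')
      have h' := AddSubgroup.mem_addSubgroupOf.1 h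
      rw [AddSubgroup.coe_add, AddSubgroup.coe_neg, neg_add_eq_sub] at h'
      exact h'⟩⟩
  left_inv p := by
    obtain ⟨q, x⟩ := p
    have hq : (QuotientAddGroup.mk (s := subIn A M) (⟨((q.out : (A : Ideal (𝓞 K)).toAddSubgroup)
        : 𝓞 K) + (x : 𝓞 K), add_mem q.out.2 (hMA x.2)⟩ : (A : Ideal (𝓞 K)).toAddSubgroup)) = q := by
      conv_rhs => rw [← q.out_eq']
      refine (QuotientAddGroup.eq (s := subIn A M)).2 (AddSubgroup.mem_addSubgroupOf.2 ?_)
      simp [x.2]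
    refine Prod.ext hq (Subtype.ext ?_)
    simp only [hq]
    ring
  right_inv a := Subtype.ext (by simp)

theorem decomp_apply (q : cosets A M) (x : (M : Ideal (𝓞 K))) :
    ((decomp A M hMA (q, x) : (A : Ideal (𝓞 K))) : 𝓞 K)
      = ((q.out : (A : Ideal (𝓞 K)).toAddSubgroup) : 𝓞 K) + (x : 𝓞 K) := rfl

variable {m : Ideal (𝓞 K)} (hMm : (M : Ideal (𝓞 K)) ≤ m)

/-- Reduction of cosets modulo `m`. -/
def cosetMap : cosets A M →+ (𝓞 K ⧸ m) :=
  QuotientAddGroup.lift (subIn A M)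
    ((Ideal.Quotient.mk m).toAddMonoidHom.comp (A : Ideal (𝓞 K)).toAddSubgroup.subtype)
    fun x hx => by
      rw [AddMonoidHom.mem_ker]
      exact Ideal.Quotient.eq_zero_iff_mem.2 (hMm (AddSubgroup.mem_addSubgroupOf.1 hx))

theorem cosetMap_eq (q : cosets A M) :
    cosetMap A M hMm q
      = Ideal.Quotient.mk m ((q.out : (A : Ideal (𝓞 K)).toAddSubgroup) : 𝓞 K) := by
  conv_lhs => rw [← q.out_eq']
  rfl

theorem cosetMap_surjective (hA : IsCoprime (A : Ideal (𝓞 K)) m) :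
    Function.Surjective (cosetMap A M hMm) := by
  intro r
  obtain ⟨x, rfl⟩ := Ideal.Quotient.mk_surjective r
  obtain ⟨a, ha, b, hb, hab⟩ := Submodule.mem_sup.1
    ((Ideal.isCoprime_iff_sup_eq.1 hA).symm ▸ Submodule.mem_top : x ∈ (A : Ideal (𝓞 K)) ⊔ m)
  refine ⟨QuotientAddGroup.mk (⟨a, ha⟩ : (A : Ideal (𝓞 K)).toAddSubgroup), ?_⟩
  show Ideal.Quotient.mk m a = _
  rw [← hab, map_add, Ideal.Quotient.eq_zero_iff_mem.2 hb, add_zero]

end Decomposition

/-- Sums over a surjective homomorphism of finite groups. -/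
theorem sum_comp_surjective {G H : Type*} [AddGroup G] [AddGroup H] [Fintype G] [Fintype H]
    (φ : G →+ H) (hφ : Function.Surjective φ) (f : H → ℂ) :
    (Fintype.card H : ℂ) * ∑ x, f (φ x) = (Fintype.card G : ℂ) * ∑ y, f y := by
  classical
  set k : ℕ := (Finset.univ.filter fun x => φ x = 0).card
  have hfib : ∀ y, (Finset.univ.filter fun x => φ x = y).card = k := by
    intro y
    obtain ⟨x₀, rfl⟩ := hφ y
    refine Finset.card_bij' (fun x _ => -x₀ + x) (fun x _ => x₀ + x) ?_ ?_ ?_ ?_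
    · intro x hx; simp_all
    · intro x hx; simp_all
    · intro x _; simp
    · intro x _; simp
  have hsum : ∑ x, f (φ x) = (k : ℂ) * ∑ y, f y := by
    rw [← Finset.sum_fiberwise Finset.univ φ, Finset.mul_sum]
    refine Finset.sum_congr rfl fun y _ => ?_
    rw [Finset.sum_congr rfl fun x hx => by rw [(Finset.mem_filter.1 hx).2], Finset.sum_const,
      hfib, nsmul_eq_mul]
  have hcard : Fintype.card G = Fintype.card H * k := by
    rw [← Finset.card_univ, Finset.card_eq_sum_card_fiberwise (f := φ) (t := Finset.univ)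
      (fun x _ => Finset.mem_univ _)]
    simp [hfib]
  rw [hsum, hcard]
  push_cast
  ring

/-- The weighted sum of a periodic function over an ideal. -/
def periodicSum (A : (Ideal (𝓞 K))⁰) (m : Ideal (𝓞 K)) (f : 𝓞 K ⧸ m → ℂ) (s : ℝ) : ℂ :=
  ∑' a : (A : Ideal (𝓞 K)), f (Ideal.Quotient.mk m (a : 𝓞 K)) * (wTerm s (a : 𝓞 K) : ℂ)

theorem summable_periodic {A : (Ideal (𝓞 K))⁰} {m : Ideal (𝓞 K)} [Finite (𝓞 K ⧸ m)]
    (f : 𝓞 K ⧸ m → ℂ) {s : ℝ} (hs : 1 < s) :
    Summable fun a : (A : Ideal (𝓞 K)) =>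
      f (Ideal.Quotient.mk m (a : 𝓞 K)) * (wTerm s (a : 𝓞 K) : ℂ) := by
  have := Fintype.ofFinite (𝓞 K ⧸ m)
  refine Summable.of_norm_bounded ((summable_wTerm A hs).mul_left (∑ r, ‖f r‖)) fun a => ?_
  rw [norm_mul, Complex.norm_real, Real.norm_eq_abs, abs_of_nonneg (wTerm_nonneg _ _)]
  exact mul_le_mul_of_nonneg_right
    (Finset.single_le_sum (f := fun r => ‖f r‖) (fun r _ => norm_nonneg _) (Finset.mem_univ _))
    (wTerm_nonneg _ _)

/-- Up to a bounded error a periodic sum is the total of `f` times the sum over `M`. -/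
theorem exists_bound_periodicSum (A M : (Ideal (𝓞 K))⁰) (hMA : (M : Ideal (𝓞 K)) ≤ (A : Ideal (𝓞 K)))
    {m : Ideal (𝓞 K)} (hMm : (M : Ideal (𝓞 K)) ≤ m) [Fintype (𝓞 K ⧸ m)]
    (hA : IsCoprime (A : Ideal (𝓞 K)) m) (f : 𝓞 K ⧸ m → ℂ) :
    ∃ C : ℝ, ∀ s : ℝ, 1 < s → s ≤ 2 →
      ‖periodicSum A m f s - (Ideal.absNorm (M : Ideal (𝓞 K)) : ℂ)
          / ((Ideal.absNorm (A : Ideal (𝓞 K)) : ℂ) * (Fintype.card (𝓞 K ⧸ m) : ℂ))
          * (∑ r, f r) * (cosetSum M s 0 : ℂ)‖ ≤ C := by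
  have := finite_cosets A M hMA
  have := Fintype.ofFinite (cosets A M)
  choose C hC using fun q : cosets A M =>
    exists_bound_cosetSum_sub M ((q.out : (A : Ideal (𝓞 K)).toAddSubgroup) : 𝓞 K)
  refine ⟨∑ q, ‖f (cosetMap A M hMm q)‖ * C q, fun s h1 h2 => ?_⟩
  have hsum : periodicSum A m f s = ∑ q : cosets A M, f (cosetMap A M hMm q)
      * (cosetSum M s ((q.out : (A : Ideal (𝓞 K)).toAddSubgroup) : 𝓞 K) : ℂ) := by
    have hs := ((decomp A M hMA).summable_iff).2 (summable_periodic (A := A) f h1)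
    rw [periodicSum, ← (decomp A M hMA).tsum_eq]
    refine hs.tsum_prod.trans ((tsum_fintype _).trans (Finset.sum_congr rfl fun q _ => ?_))
    rw [cosetSum, Complex.ofReal_tsum, ← tsum_mul_left]
    refine tsum_congr fun x => ?_
    rw [Function.comp_apply, decomp_apply, cosetMap_eq, map_add,
      Ideal.Quotient.eq_zero_iff_mem.2 (hMm x.2), add_zero]
  have hm : (Fintype.card (𝓞 K ⧸ m) : ℂ) ≠ 0 := Nat.cast_ne_zero.2 Fintype.card_ne_zero
  have hAn : (Ideal.absNorm (A : Ideal (𝓞 K)) : ℂ) ≠ 0 :=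
    Nat.cast_ne_zero.2 (Ideal.absNorm_ne_zero_of_nonZeroDivisors A)
  have htot : ∑ q, f (cosetMap A M hMm q) = (Ideal.absNorm (M : Ideal (𝓞 K)) : ℂ)
      / ((Ideal.absNorm (A : Ideal (𝓞 K)) : ℂ) * (Fintype.card (𝓞 K ⧸ m) : ℂ)) * ∑ r, f r := by
    have h := sum_comp_surjective (cosetMap A M hMm) (cosetMap_surjective A M hMm hA) f
    rw [← natCard_cosets_mul A M hMA, Nat.card_eq_fintype_card, Nat.cast_mul]
    field_simp
    linear_combination h
  rw [← htot, hsum, Finset.sum_mul, ← Finset.sum_sub_distrib]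
  refine (norm_sum_le _ _).trans (Finset.sum_le_sum fun q _ => ?_)
  rw [← mul_sub, norm_mul, ← Complex.ofReal_sub, Complex.norm_real, Real.norm_eq_abs]
  exact mul_le_mul_of_nonneg_left (hC q s h1 h2) (norm_nonneg _)

end FLTAgent.TW.RayL
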