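import Fermat.Agent.TW.RayL.Euler
import Fermat.Agent.TW.RayL.Defs
import Mathlib.FieldTheory.Finite.Basic
import Mathlib.NumberTheory.LSeries.Basic
import Mathlib.Analysis.PSeries

/-!
# Sums over primes near `s = 1`
-/

set_option autoImplicit false

noncomputable section

open Module NumberField IsDedekindDomain Filter Topology

attribute [local instance] Classical.propDecidable

namespace FLTAgent.TW.RayL

variable {K : Type} [Field K] [NumberField K]

/-- The sum of `N(P)^(-s)` over the primes in `S`. -/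
def primeSum (S : Set (HeightOneSpectrum (𝓞 K))) (s : ℝ) : ℝ :=
  ∑' P, S.indicator (fun P => nterm s P.asIdeal) P

theorem two_le_absNorm (P : HeightOneSpectrum (𝓞 K)) : 2 ≤ Ideal.absNorm P.asIdeal := by
  have h0 : Ideal.absNorm P.asIdeal ≠ 0 := mt Ideal.absNorm_eq_zero_iff.1 P.ne_bot
  have h1 : Ideal.absNorm P.asIdeal ≠ 1 := mt Ideal.absNorm_eq_one_iff.1 P.isPrime.ne_top
  omega

theorem nterm_prime_le_half {s : ℝ} (hs : 1 ≤ s) (P : HeightOneSpectrum (𝓞 K)) :
    nterm s P.asIdeal ≤ 1 / 2 := by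
  have h : (2 : ℝ) ≤ Ideal.absNorm P.asIdeal := by exact_mod_cast two_le_absNorm P
  refine (Real.rpow_le_rpow_of_exponent_le (by linarith) (neg_le_neg hs)).trans ?_
  rw [Real.rpow_neg_one, ← one_div]
  exact one_div_le_one_div_of_le two_pos h

theorem summable_primes {s : ℝ} (hs : 1 < s) :
    Summable fun P : HeightOneSpectrum (𝓞 K) => nterm s P.asIdeal :=
  (summable_nterm hs).comp_injective fun _ _ => HeightOneSpectrum.ext

theorem primeSum_nonneg (S : Set (HeightOneSpectrum (𝓞 K))) (s : ℝ) : 0 ≤ primeSum S s :=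
  tsum_nonneg fun _ => Set.indicator_nonneg (fun _ _ => nterm_nonneg _ _) _

theorem primeSum_mono {S T : Set (HeightOneSpectrum (𝓞 K))} (h : S ⊆ T) {s : ℝ} (hs : 1 < s) :
    primeSum S s ≤ primeSum T s :=
  Summable.tsum_le_tsum (fun _ => Set.indicator_le_indicator_of_subset h
    (fun _ => nterm_nonneg _ _) _) ((summable_primes hs).indicator _) ((summable_primes hs).indicator _)

theorem primeSum_union_le (S T : Set (HeightOneSpectrum (𝓞 K))) {s : ℝ} (hs : 1 < s) :
    primeSum (S ∪ T) s ≤ primeSum S s + primeSum T s := by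
  rw [primeSum, primeSum, primeSum, ← ((summable_primes hs).indicator _).tsum_add
    ((summable_primes hs).indicator _)]
  refine Summable.tsum_le_tsum (fun P => ?_) ((summable_primes hs).indicator _)
    (((summable_primes hs).indicator _).add ((summable_primes hs).indicator _))
  have := nterm_nonneg s P.asIdeal
  by_cases h₁ : P ∈ S <;> by_cases h₂ : P ∈ T <;> simp [Set.indicator, h₁, h₂] <;> linarith

theorem primeSum_le_card {S : Set (HeightOneSpectrum (𝓞 K))} (hS : S.Finite) {s : ℝ} (hs : 1 < s) :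
    primeSum S s ≤ hS.toFinset.card := by
  rw [primeSum, tsum_eq_sum (s := hS.toFinset)
    fun P hP => Set.indicator_of_notMem (mt hS.mem_toFinset.2 hP) _]
  refine (Finset.sum_le_card_nsmul _ _ (1 : ℝ) fun P _ => ?_).trans (by simp)
  exact (Set.indicator_le_self' (fun _ _ => nterm_nonneg _ _) P).trans
    ((nterm_prime_le_half hs.le P).trans (by norm_num))

theorem sum_nterm_le_primeSum {S : Set (HeightOneSpectrum (𝓞 K))}
    (T : Finset (HeightOneSpectrum (𝓞 K))) (hT : ∀ P ∈ T, P ∈ S) {s : ℝ} (hs : 1 < s) :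
    ∑ P ∈ T, nterm s P.asIdeal ≤ primeSum S s := by
  refine le_trans (le_of_eq (Finset.sum_congr rfl fun P hP => (Set.indicator_of_mem (hT P hP) (fun P => nterm s P.asIdeal)).symm))
    (((summable_primes hs).indicator S).sum_le_tsum T
      fun _ _ => Set.indicator_nonneg (fun _ _ => nterm_nonneg _ _) _)

theorem primeSum_le_of_sum_le {S : Set (HeightOneSpectrum (𝓞 K))} {s c : ℝ}
    (h : ∀ T : Finset (HeightOneSpectrum (𝓞 K)), (∀ P ∈ T, P ∈ S) →
      ∑ P ∈ T, nterm s P.asIdeal ≤ c) : primeSum S s ≤ c := by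
  refine Real.tsum_le_of_sum_le (fun _ => Set.indicator_nonneg (fun _ _ => nterm_nonneg _ _) _)
    fun T => ?_
  rw [Finset.sum_indicator_eq_sum_filter]
  exact h _ fun P hP => (Finset.mem_filter.1 hP).2

theorem isPrimePow_absNorm (P : HeightOneSpectrum (𝓞 K)) :
    IsPrimePow (Ideal.absNorm P.asIdeal) := by
  have := P.isPrime.isMaximal P.ne_bot
  let := Ideal.Quotient.field P.asIdeal
  have := Ideal.finiteQuotientOfFreeOfNeBot P.asIdeal P.ne_bot
  let := Fintype.ofFinite (𝓞 K ⧸ P.asIdeal)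
  rw [Ideal.absNorm_apply, Submodule.cardQuot_apply, Nat.card_eq_fintype_card]
  exact FiniteField.isPrimePow_card _

/-- A prime of higher degree lies over a prime `q` with `q² ≤ N(P)`. -/
theorem exists_prime_sq_le {P : HeightOneSpectrum (𝓞 K)} (hP : ¬ IsDegreeOne P) :
    ∃ q : ℕ, q.Prime ∧ (q : 𝓞 K) ∈ P.asIdeal ∧ q ^ 2 ≤ Ideal.absNorm P.asIdeal := by
  obtain ⟨q, k, hq, hk, hqk⟩ := (isPrimePow_nat_iff _).1 (isPrimePow_absNorm P)
  refine ⟨q, hq, P.isPrime.mem_of_pow_mem k ?_, hqk ▸ Nat.pow_le_pow_right hq.pos ?_⟩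
  · rw [← Nat.cast_pow, hqk]
    exact Ideal.absNorm_mem _
  · by_contra hk2
    obtain rfl : k = 1 := by omega
    exact hP (show (Ideal.absNorm P.asIdeal).Prime by rw [← hqk, pow_one]; exact hq)

theorem card_le_finrank {q : ℕ} (hq : q.Prime) (T : Finset (HeightOneSpectrum (𝓞 K)))
    (hT : ∀ P ∈ T, (q : 𝓞 K) ∈ P.asIdeal ∧ q ≤ Ideal.absNorm P.asIdeal) :
    T.card ≤ finrank ℚ K := by
  have hq0 : (q : 𝓞 K) ≠ 0 := Nat.cast_ne_zero.2 hq.ne_zero
  have hdvd : ∏ P ∈ T, P.asIdeal ∣ Ideal.span {(q : 𝓞 K)} := by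
    have h := Finset.prod_primes_dvd (s := T.image fun P => P.asIdeal) (Ideal.span {(q : 𝓞 K)})
      (fun I hI => by
        obtain ⟨P, -, rfl⟩ := Finset.mem_image.1 hI
        exact P.prime)
      (fun I hI => by
        obtain ⟨P, hP, rfl⟩ := Finset.mem_image.1 hI
        exact Ideal.dvd_span_singleton.2 (hT P hP).1)
    rwa [Finset.prod_image fun _ _ _ _ h => HeightOneSpectrum.ext h] at h
  have hn := map_dvd (Ideal.absNorm (S := 𝓞 K)) hdvd
  rw [map_prod, Ideal.absNorm_span_singleton, ← map_natCast (algebraMap ℤ (𝓞 K)),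
    Algebra.norm_algebraMap, RingOfIntegers.rank, Int.natAbs_pow, Int.natAbs_natCast] at hn
  have h1 := (Finset.pow_card_le_prod T _ q fun P hP => (hT P hP).2).trans
    (Nat.le_of_dvd (pow_pos hq.pos _) hn)
  exact (Nat.pow_le_pow_iff_right hq.one_lt).1 h1

/-- Primes of degree greater than one contribute a bounded amount. -/
theorem exists_bound_higher :
    ∃ D : ℝ, ∀ s : ℝ, 1 < s →
      primeSum {P : HeightOneSpectrum (𝓞 K) | ¬ IsDegreeOne P} s ≤ D := by
  have hsum : Summable fun q : ℕ => 1 / (q : ℝ) ^ 2 := Real.summable_one_div_nat_pow.2 one_lt_two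
  choose! q hq using fun (P : HeightOneSpectrum (𝓞 K)) (hP : ¬ IsDegreeOne P) =>
    exists_prime_sq_le hP
  refine ⟨finrank ℚ K * ∑' q : ℕ, 1 / (q : ℝ) ^ 2, fun s hs => primeSum_le_of_sum_le fun T hT => ?_⟩
  rw [← Finset.sum_fiberwise_of_maps_to (fun P hP => Finset.mem_image_of_mem q hP)]
  calc ∑ r ∈ T.image q, ∑ P ∈ T with q P = r, nterm s P.asIdeal
      ≤ ∑ r ∈ T.image q, (finrank ℚ K : ℝ) * (1 / (r : ℝ) ^ 2) := by
        refine Finset.sum_le_sum fun r hr => ?_
        obtain ⟨P₀, hP₀, rfl⟩ := Finset.mem_image.1 hr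
        have hcard : ({P ∈ T | q P = q P₀}).card ≤ finrank ℚ K := by
          refine card_le_finrank (hq P₀ (hT P₀ hP₀)).1 _ fun P hP => ?_
          rw [Finset.mem_filter] at hP
          obtain ⟨h1, h2, h3⟩ := hq P (hT P hP.1)
          rw [← hP.2]
          exact ⟨h2, le_trans (Nat.le_self_pow two_ne_zero _) h3⟩
        refine (Finset.sum_le_card_nsmul _ _ (1 / (q P₀ : ℝ) ^ 2) fun P hP => ?_).trans ?_
        · rw [Finset.mem_filter] at hP
          obtain ⟨h1, h2, h3⟩ := hq P (hT P hP.1)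
          rw [← hP.2]
          have hN : (1 : ℝ) ≤ Ideal.absNorm P.asIdeal :=
            Nat.one_le_cast.2 (one_le_two.trans (two_le_absNorm P))
          refine (Real.rpow_le_rpow_of_exponent_le hN (neg_le_neg hs.le)).trans ?_
          rw [Real.rpow_neg_one, ← one_div]
          exact one_div_le_one_div_of_le (pow_pos (Nat.cast_pos.2 h1.pos) _) (by exact_mod_cast h3)
        · rw [nsmul_eq_mul]
          exact mul_le_mul_of_nonneg_right (Nat.cast_le.2 hcard) (by positivity)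
    _ ≤ _ := by
      rw [← Finset.mul_sum]
      exact mul_le_mul_of_nonneg_left (hsum.sum_le_tsum _ fun _ _ => by positivity) (Nat.cast_nonneg _)

theorem zeta_euler {s : ℝ} (hs : 1 < s) :
    ∃ T₀ : Finset (HeightOneSpectrum (𝓞 K)), ∀ T, T₀ ⊆ T →
      |zetaSum K s * ∏ P ∈ T, (1 - nterm s P.asIdeal) - 1| ≤ 1 / 2 := by
  obtain ⟨T₀, hT₀⟩ := (trivChar K).exists_euler hs
  refine ⟨T₀, fun T hT => ?_⟩
  have h := hT₀ T hT
  simp only [trivChar_term (zero_lt_one.trans hs).ne', lseries_trivChar (zero_lt_one.trans hs).ne']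
    at h
  rw [← Real.norm_eq_abs, ← Complex.norm_real]
  simpa using h

/-- All primes: `∑ N(P)^(-s) ≤ log (1/(s-1)) + O(1)`. -/
theorem exists_primeSum_le :
    ∃ D : ℝ, ∀ᶠ s in 𝓝[>] (1 : ℝ),
      primeSum (Set.univ : Set (HeightOneSpectrum (𝓞 K))) s ≤ Real.log (1 / (s - 1)) + D := by
  obtain ⟨D, hD⟩ := exists_log_zetaSum (K := K)
  refine ⟨D + Real.log 2, ?_⟩
  filter_upwards [hD, self_mem_nhdsWithin] with s hsD (hs : 1 < s)
  obtain ⟨T₀, hT₀⟩ := zeta_euler (K := K) hs
  refine primeSum_le_of_sum_le fun T _ => ?_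
  have hpos : ∀ P : HeightOneSpectrum (𝓞 K), 0 < 1 - nterm s P.asIdeal := fun P => by
    linarith [nterm_prime_le_half hs.le P]
  have hZ : 0 < zetaSum K s := zero_lt_one.trans_le (one_le_zetaSum hs)
  have h := (abs_le.1 (hT₀ (T ∪ T₀) Finset.subset_union_right)).1
  have hlog := Real.log_le_log one_half_pos
    (show 1 / 2 ≤ zetaSum K s * ∏ P ∈ T ∪ T₀, (1 - nterm s P.asIdeal) by linarith)
  rw [Real.log_mul hZ.ne' (Finset.prod_pos fun P _ => hpos P).ne',
    Real.log_prod fun P _ => (hpos P).ne', one_div, Real.log_inv] at hlog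
  have hle : ∑ P ∈ T ∪ T₀, Real.log (1 - nterm s P.asIdeal)
      ≤ -∑ P ∈ T, nterm s P.asIdeal := by
    refine (Finset.sum_le_sum fun P _ => Real.log_le_sub_one_of_pos (hpos P)).trans ?_
    simp only [sub_sub_cancel_left, Finset.sum_neg_distrib]
    exact neg_le_neg (Finset.sum_le_sum_of_subset_of_nonneg Finset.subset_union_left
      fun P _ _ => nterm_nonneg _ _)
  linarith [(abs_le.1 hsD).2]

/-- Degree one primes: `∑ N(P)^(-s) ≥ log (1/(s-1)) - O(1)`. -/
theorem exists_le_primeSum_degreeOne :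
    ∃ D : ℝ, ∀ᶠ s in 𝓝[>] (1 : ℝ),
      Real.log (1 / (s - 1)) - D ≤ primeSum {P : HeightOneSpectrum (𝓞 K) | IsDegreeOne P} s := by
  obtain ⟨D, hD⟩ := exists_log_zetaSum (K := K)
  obtain ⟨E, hE⟩ := exists_bound_higher (K := K)
  refine ⟨D + E + 2 * zetaSum K 2 + Real.log (3 / 2), ?_⟩
  filter_upwards [hD, self_mem_nhdsWithin] with s hsD (hs : 1 < s)
  obtain ⟨T, hT⟩ := zeta_euler (K := K) hs
  have hpos : ∀ P : HeightOneSpectrum (𝓞 K), 0 < 1 - nterm s P.asIdeal := fun P => by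
    linarith [nterm_prime_le_half hs.le P]
  have hZ : 0 < zetaSum K s := zero_lt_one.trans_le (one_le_zetaSum hs)
  have hprod := Finset.prod_pos (s := T) fun P _ => hpos P
  have h := (abs_le.1 (hT T subset_rfl)).2
  have hlog := Real.log_le_log (mul_pos hZ hprod)
    (show zetaSum K s * ∏ P ∈ T, (1 - nterm s P.asIdeal) ≤ 3 / 2 by linarith)
  rw [Real.log_mul hZ.ne' hprod.ne', Real.log_prod fun P _ => (hpos P).ne'] at hlog
  have hterm : ∀ P : HeightOneSpectrum (𝓞 K),
      -Real.log (1 - nterm s P.asIdeal) ≤ nterm s P.asIdeal + 2 * nterm 2 P.asIdeal := by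
    intro P
    set x := nterm s P.asIdeal
    have hx0 : 0 ≤ x := nterm_nonneg _ _
    have hx : x ≤ 1 / 2 := nterm_prime_le_half hs.le P
    have h1 := Real.one_sub_inv_le_log_of_pos (hpos P)
    have h2 : (1 - x)⁻¹ - 1 ≤ x + 2 * x ^ 2 := by
      rw [sub_le_iff_le_add, inv_le_iff_one_le_mul₀ (hpos P)]
      nlinarith [mul_le_mul_of_nonneg_left hx (sq_nonneg x)]
    have h3 : x ^ 2 ≤ nterm 2 P.asIdeal := by
      rw [← Real.rpow_natCast x 2, show x = nterm s P.asIdeal from rfl, nterm, nterm,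
        ← Real.rpow_mul (Nat.cast_nonneg _)]
      exact Real.rpow_le_rpow_of_exponent_le
        (Nat.one_le_cast.2 (one_le_two.trans (two_le_absNorm P))) (by push_cast; linarith)
    linarith
  have hsum : -∑ P ∈ T, Real.log (1 - nterm s P.asIdeal)
      ≤ ∑ P ∈ T, nterm s P.asIdeal + 2 * ∑ P ∈ T, nterm 2 P.asIdeal := by
    rw [← Finset.sum_neg_distrib, Finset.mul_sum, ← Finset.sum_add_distrib]
    exact Finset.sum_le_sum fun P _ => hterm P
  have h2 : ∑ P ∈ T, nterm 2 P.asIdeal ≤ zetaSum K 2 := by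
    rw [← Finset.sum_image (g := fun P : HeightOneSpectrum (𝓞 K) => P.asIdeal) (f := nterm 2)
      fun _ _ _ _ h => HeightOneSpectrum.ext h]
    exact (summable_nterm one_lt_two).sum_le_tsum _ fun _ _ => nterm_nonneg _ _
  have h3 := (sum_nterm_le_primeSum T (S := {P | IsDegreeOne P} ∪ {P | ¬ IsDegreeOne P})
    (fun P _ => em _) hs).trans (primeSum_union_le _ _ hs)
  linarith [(abs_le.1 hsD).1, hE s hs]

end FLTAgent.TW.RayL
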